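/-
LSb / Unit / Datum  (helper4)

The concrete shape of the nodal datum used for the modular instance: two Gauss data `D1 D2` on
`F`, a coordinate `y : F` (in the application `y = j`), a constant `c₀ : A` (the second chart is
the complement of the fibre `y = c₀`), and `s` pairs of node points.

  `P₁ = (y)_∞`, `P₂ = (y - c₀)_0`, `Q₁ᵢ = (redᵢ y)_∞`, `Q₂ᵢ = (redᵢ y - c̄₀)_0`.
-/
import Fermat.Agent.LSb.Core.Datum
import Fermat.Agent.S18lib.Setup.DatumFibre

set_option autoImplicit false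

noncomputable section

namespace Fermat.Agent.LSb.Unit

open AlgebraicCurve Fermat.Agent.S18lib

variable {L : Type*} [Field L] {A : ValuationSubring L}
variable {F : Type*} [Field F] [Algebra L F]
variable {F₁ F₂ : Type*} [Field F₁] [Field F₂]
variable [Algebra (IsLocalRing.ResidueField A) F₁] [Algebra (IsLocalRing.ResidueField A) F₂]
variable [HasPrincipalDivisors L F] [HasPrincipalDivisors (IsLocalRing.ResidueField A) F₁]
variable [HasPrincipalDivisors (IsLocalRing.ResidueField A) F₂]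

local notation "k" => IsLocalRing.ResidueField A

/-- the nodal datum with charts `y ≠ ∞` and `y ≠ c₀` -/
def chartDatum (D1 : GaussDatum A F F₁) (D2 : GaussDatum A F F₂) (y : F) (c₀ : A) (s : ℕ)
    (x₁ : Fin s → Place k F₁) (x₂ : Fin s → Place k F₂) : NodalDatum A F F₁ F₂ where
  V₁ := D1
  V₂ := D2
  P₁ := polesOf (K := L) y
  P₂ := zerosOf (K := L) (y - algebraMap L F (c₀ : L))
  Q₁₁ := polesOf (K := k) (D1.redF y)
  Q₂₁ := zerosOf (K := k) (D1.redF y - algebraMap k F₁ (IsLocalRing.residue A c₀))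
  Q₁₂ := polesOf (K := k) (D2.redF y)
  Q₂₂ := zerosOf (K := k) (D2.redF y - algebraMap k F₂ (IsLocalRing.residue A c₀))
  s := s
  x₁ := x₁
  x₂ := x₂

section Simp

variable (D1 : GaussDatum A F F₁) (D2 : GaussDatum A F F₂) (y : F) (c₀ : A) (s : ℕ)
    (x₁ : Fin s → Place (IsLocalRing.ResidueField A) F₁)
    (x₂ : Fin s → Place (IsLocalRing.ResidueField A) F₂)

@[simp] theorem chartDatum_V₁ : (chartDatum D1 D2 y c₀ s x₁ x₂).V₁ = D1 := rfl

@[simp] theorem chartDatum_V₂ : (chartDatum D1 D2 y c₀ s x₁ x₂).V₂ = D2 := rfl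

@[simp] theorem chartDatum_P₁ : (chartDatum D1 D2 y c₀ s x₁ x₂).P₁ = polesOf (K := L) y := rfl

@[simp] theorem chartDatum_P₂ :
    (chartDatum D1 D2 y c₀ s x₁ x₂).P₂ = zerosOf (K := L) (y - algebraMap L F (c₀ : L)) := rfl

@[simp] theorem chartDatum_Q₁₁ :
    (chartDatum D1 D2 y c₀ s x₁ x₂).Q₁₁ = polesOf (K := k) (D1.redF y) := rfl

@[simp] theorem chartDatum_Q₂₁ : (chartDatum D1 D2 y c₀ s x₁ x₂).Q₂₁ =
    zerosOf (K := k) (D1.redF y - algebraMap k F₁ (IsLocalRing.residue A c₀)) := rfl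

@[simp] theorem chartDatum_Q₁₂ :
    (chartDatum D1 D2 y c₀ s x₁ x₂).Q₁₂ = polesOf (K := k) (D2.redF y) := rfl

@[simp] theorem chartDatum_Q₂₂ : (chartDatum D1 D2 y c₀ s x₁ x₂).Q₂₂ =
    zerosOf (K := k) (D2.redF y - algebraMap k F₂ (IsLocalRing.residue A c₀)) := rfl

@[simp] theorem chartDatum_s : (chartDatum D1 D2 y c₀ s x₁ x₂).s = s := rfl

theorem chartDatum_x₁ : (chartDatum D1 D2 y c₀ s x₁ x₂).x₁ = x₁ := rfl

theorem chartDatum_x₂ : (chartDatum D1 D2 y c₀ s x₁ x₂).x₂ = x₂ := rfl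

theorem chartDatum_chartDiv (a b : ℤ) : (chartDatum D1 D2 y c₀ s x₁ x₂).chartDiv a b =
    a • polesOf (K := L) y + b • zerosOf (K := L) (y - algebraMap L F (c₀ : L)) := rfl

theorem chartDatum_chartDiv₁ (a b : ℤ) : (chartDatum D1 D2 y c₀ s x₁ x₂).chartDiv₁ a b =
    a • polesOf (K := k) (D1.redF y) +
      b • zerosOf (K := k) (D1.redF y - algebraMap k F₁ (IsLocalRing.residue A c₀)) := rfl

theorem chartDatum_chartDiv₂ (a b : ℤ) : (chartDatum D1 D2 y c₀ s x₁ x₂).chartDiv₂ a b =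
    a • polesOf (K := k) (D2.redF y) +
      b • zerosOf (K := k) (D2.redF y - algebraMap k F₂ (IsLocalRing.residue A c₀)) := rfl

end Simp

end Fermat.Agent.LSb.Unit
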