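/-
LSb / Unit / Glue  (helper4)

The abstract GLUE lemma (N3 of PLAN-LSb v1) for two Gauss data `D1 D2 : GaussDatum A F Fk` on the
same function field `F` (the two components of the special fibre):

* `Raff`  : functions regular outside the cusps (a subring of `F`),
* `R0`    : functions on the affine special component (a subring of `Fk`),
* `V`     : `Fk →+* Fk`, in the application `t ↦ t^q`,
* level-`M` lifts: every `z ∈ R0` is `red1 f`, `red2 f = V z` for some `f ∈ Raff ∩ O1 ∩ O2`,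
* the modular unit `Y`: `Y, Y⁻¹ ∈ Raff`, `|Y|_1 < 1 = |Y|_2`.

Then for every `h ∈ Raff ∩ O1 ∩ O2` a power of `u = red2 h - V (red1 h)` is `red2 Y * g₂` with
`g₂ ∈ R0`: `u` vanishes at every zero of `H2 = red2 Y` on the affine special component.
-/
import Fermat.Agent.S18lib.Weak.Lemmas

set_option autoImplicit false

noncomputable section

namespace Fermat.Agent.LSb.Unit

open Fermat.Agent.S18lib

variable {L : Type*} [Field L] {A : ValuationSubring L}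
variable {F : Type*} [Field F] [Algebra L F]
variable {Fk : Type*} [Field Fk] [Algebra (IsLocalRing.ResidueField A) Fk]

/-- rank one (archimedean value group), in the form used by `S18lib.Cech.Ctx.main`. -/
def RankOne (A : ValuationSubring L) : Prop :=
  ∀ c : A, c ∈ IsLocalRing.maximalIdeal A → ∀ d : A, d ≠ 0 → ∃ n : ℕ, ¬ c ^ n ∣ d

/-- in a valuation ring, `¬ a ∣ b → b ∣ a` -/
theorem dvd_of_not_dvd (a b : A) (h : ¬ a ∣ b) : b ∣ a := by
  rcases ValuationRing.dvd_total a b with h1 | h1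
  · exact absurd h1 h
  · exact h1

/-- **Power trick.** If `e ∈ O` has zero reduction and `Y ≠ 0`, `Y ∈ O`, then `e ^ n / Y ∈ O` for some
`n` (rank one). -/
theorem exists_pow_div_mem (D : GaussDatum A F Fk) (hA1 : RankOne A) {e Y : F}
    (he : e ∈ D.O) (he0 : D.redF e = 0) (hY0 : Y ≠ 0) :
    ∃ n : ℕ, e ^ n * Y⁻¹ ∈ D.O := by
  rcases eq_or_ne e 0 with rfl | hene
  · exact ⟨1, by rw [pow_one, zero_mul]; exact D.O.zero_mem⟩
  obtain ⟨a, y, ha, hy, hey⟩ := D.exists_eq_mul_of_redF_eq_zero he hene he0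
  -- `Y = c⁻¹ * unit`
  obtain ⟨c, hc, u, hu⟩ := D.exists_const_mul_isUnit Y hY0
  have hcF : algebraMap L F c ≠ 0 := (map_ne_zero _).2 hc
  have hYinv : Y⁻¹ = algebraMap L F c * (((u⁻¹ : D.Oˣ) : D.O) : F) := by
    have h1 : Y = (algebraMap L F c)⁻¹ * ((u : D.O) : F) := by
      rw [← hu, ← mul_assoc, inv_mul_cancel₀ hcF, one_mul]
    have hu0 : ((u : D.O) : F) ≠ 0 := by
      intro h0
      apply hY0
      rw [h1, h0, mul_zero]
    have hui : (((u⁻¹ : D.Oˣ) : D.O) : F) = ((u : D.O) : F)⁻¹ := by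
      have h2 : ((u : D.O) : F) * (((u⁻¹ : D.Oˣ) : D.O) : F) = 1 := by
        have h3 : (u : D.O) * ((u⁻¹ : D.Oˣ) : D.O) = 1 := u.mul_inv
        have h4 := congrArg (Subtype.val) h3
        exact h4
      exact eq_inv_of_mul_eq_one_right h2
    rw [h1, mul_inv, inv_inv, hui]
  have ha0 : a ≠ 0 := by
    rintro rfl
    apply hene
    rw [hey]
    simp
  -- it suffices that `a ^ n * c ∈ A`
  have hkey : ∃ n : ℕ, ((a : L)) ^ n * c ∈ A := by
    rcases A.mem_or_inv_mem c with hcA | hcA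
    · exact ⟨0, by simpa using hcA⟩
    · -- `c⁻¹ = d ∈ A`, `d ≠ 0`; choose `n` with `¬ a^n ∣ d`, so `d ∣ a^n`
      set d : A := ⟨c⁻¹, hcA⟩ with hd
      have hd0 : d ≠ 0 := by
        intro h0
        have := congrArg Subtype.val h0
        simp only [hd, ZeroMemClass.coe_zero, inv_eq_zero] at this
        exact hc this
      obtain ⟨n, hn⟩ := hA1 a ha d hd0
      obtain ⟨b, hb⟩ := dvd_of_not_dvd (a ^ n) d hn
      refine ⟨n, ?_⟩
      have h1 : ((a : L)) ^ n = c⁻¹ * (b : L) := by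
        have := congrArg Subtype.val hb
        simpa [hd] using this
      rw [h1, mul_comm c⁻¹, mul_assoc, inv_mul_cancel₀ hc, mul_one]
      exact b.2
  obtain ⟨n, hn⟩ := hkey
  refine ⟨n, ?_⟩
  have hyO : y ∈ D.O := D.mem_of_redF_ne_zero hy
  have : e ^ n * Y⁻¹ =
      algebraMap L F (((a : L)) ^ n * c) * (y ^ n * (((u⁻¹ : D.Oˣ) : D.O) : F)) := by
    rw [hey, hYinv, mul_pow, map_mul, map_pow]
    ring
  rw [this]
  exact D.smul_mem ⟨_, hn⟩ (D.O.mul_mem _ _ (D.O.pow_mem hyO n) ((u⁻¹ : D.Oˣ) : D.O).2)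

/-- **Abstract GLUE (N3).** -/
theorem glue_abstract (D1 D2 : GaussDatum A F Fk) (hA1 : RankOne A)
    (Raff : Subring F) (R0 : Subring Fk) (V : Fk →+* Fk)
    (hred2 : ∀ h ∈ Raff, h ∈ D1.O → h ∈ D2.O → D2.redF h ∈ R0)
    (hlift : ∀ z : Fk, z ∈ R0 → ∃ f ∈ Raff, f ∈ D1.O ∧ f ∈ D2.O ∧ D1.redF f = z ∧ D2.redF f = V z)
    (hred1 : ∀ h ∈ Raff, h ∈ D1.O → h ∈ D2.O → D1.redF h ∈ R0)
    {Y : F} (hYaff : Y ∈ Raff) (hYinv : Y⁻¹ ∈ Raff) (hY2 : D2.redF Y ≠ 0)
    {h : F} (hh : h ∈ Raff) (hh1 : h ∈ D1.O) (hh2 : h ∈ D2.O) :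
    ∃ (n : ℕ) (g₂ : Fk), g₂ ∈ R0 ∧
      (D2.redF h - V (D1.redF h)) ^ n = D2.redF Y * g₂ := by
  obtain ⟨f, hf, hf1, hf2, hfz, hfV⟩ := hlift (D1.redF h) (hred1 h hh hh1 hh2)
  set e : F := h - f with he
  have heaff : e ∈ Raff := Raff.sub_mem hh hf
  have he1 : e ∈ D1.O := D1.O.sub_mem hh1 hf1
  have he2 : e ∈ D2.O := D2.O.sub_mem hh2 hf2
  have hred1e : D1.redF e = 0 := by rw [he, D1.redF_sub hh1 hf1, hfz, sub_self]
  have hred2e : D2.redF e = D2.redF h - V (D1.redF h) := by rw [he, D2.redF_sub hh2 hf2, hfV]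
  have hY0 : Y ≠ 0 := by
    rintro rfl
    exact hY2 D2.redF_zero
  obtain ⟨n, hn⟩ := exists_pow_div_mem D1 hA1 he1 hred1e hY0
  have hYO2 : Y ∈ D2.O := D2.mem_of_redF_ne_zero hY2
  have hYi2 : Y⁻¹ ∈ D2.O := D2.inv_mem_of_redF_ne_zero hY2
  set g : F := e ^ n * Y⁻¹ with hg
  have hgaff : g ∈ Raff := Raff.mul_mem (Raff.pow_mem heaff n) hYinv
  have hg2 : g ∈ D2.O := D2.O.mul_mem _ _ (D2.O.pow_mem he2 n) hYi2
  have hmul : e ^ n = Y * g := by
    rw [hg, mul_comm (e ^ n), ← mul_assoc, mul_inv_cancel₀ hY0, one_mul]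
  refine ⟨n, D2.redF g, hred2 g hgaff hn hg2, ?_⟩
  rw [← hred2e, ← D2.redF_pow he2, hmul, D2.redF_mul hYO2 hg2]

end Fermat.Agent.LSb.Unit
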