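/-
LSb / Unit / Nodes  (helper4)

The NODES and the GLUE field of `NodalCtx`, abstractly:
* `regAway K x`  : functions regular wherever `x` is regular (valuation-theoretic "integral over K[x]");
* `frobPlace`    : the image `x' ∘ V` of a place under a field endomorphism `V` (S29lib restriction);
* `HasValueAt` algebra;
* `glue_regAway` : GLUE for `f ∈ regAway jF ∩ O₁ ∩ O₂` at a node `(frobPlace x', x')`, `x'` a zero of
  `red₂ Y`;
* `glue_chart`   : the same for `f ∈ L(a·(j)_∞ + b·(j - c₀)_0) ∩ O₁ ∩ O₂` (the `NodalCtx.glue` shape).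
-/
import Fermat.Agent.LSb.Core.Datum
import Fermat.Agent.LSb.Unit.Glue
import Fermat.Agent.S29lib.D.Restrict
import Fermat.Agent.S18lib.Tame.ZeroPole
import Fermat.Agent.S18lib.Setup.DatumFibre
import Fermat.Agent.S18lib.Cech.CurveBasics

set_option autoImplicit false

noncomputable section

namespace Fermat.Agent.LSb.Unit

open AlgebraicCurve Fermat.Agent.S18lib Fermat.Agent.ProgramR

section Val

variable {K F : Type*} [Field K] [Field F] [Algebra K F]

/-- the maximal ideal of a place in terms of membership -/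
theorem adicValuation_lt_one_iff (Q : Place K F) (z : F) :
    Q.adicValuation z < 1 ↔ z = 0 ∨ z⁻¹ ∉ Q.toValuationSubring := by
  rcases eq_or_ne z 0 with rfl | hz
  · simp
  · rw [or_iff_right hz, ← Tame.adicValuation_le_one_iff_mem, map_inv₀, not_le]
    have hpos : 0 < Q.adicValuation z := by
      rw [zero_lt_iff]; exact Q.adicValuation_ne_zero hz
    rw [one_lt_inv₀ hpos]

theorem mem_of_adicValuation_lt_one (Q : Place K F) {z : F} (h : Q.adicValuation z < 1) :
    z ∈ Q.toValuationSubring :=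
  (Tame.adicValuation_le_one_iff_mem Q z).1 h.le

/-- functions regular wherever `x` is regular -/
def regAway (K : Type*) {F : Type*} [Field K] [Field F] [Algebra K F] (x : F) : Subring F where
  carrier := {f | ∀ Q : Place K F, x ∈ Q.toValuationSubring → f ∈ Q.toValuationSubring}
  mul_mem' := fun hf hg Q hQ => Q.toValuationSubring.mul_mem _ _ (hf Q hQ) (hg Q hQ)
  one_mem' := fun Q _ => Q.toValuationSubring.one_mem
  add_mem' := fun hf hg Q hQ => Q.toValuationSubring.add_mem _ _ (hf Q hQ) (hg Q hQ)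
  zero_mem' := fun Q _ => Q.toValuationSubring.zero_mem
  neg_mem' := fun hf Q hQ => Q.toValuationSubring.neg_mem _ (hf Q hQ)

theorem mem_regAway {x f : F} :
    f ∈ regAway K x ↔ ∀ Q : Place K F, x ∈ Q.toValuationSubring → f ∈ Q.toValuationSubring :=
  Iff.rfl

theorem self_mem_regAway (x : F) : x ∈ regAway K x := fun _ hQ => hQ

theorem algebraMap_mem_regAway (x : F) (c : K) : algebraMap K F c ∈ regAway K x :=
  fun Q _ => Q.algebraMap_mem' c

/-! ### `HasValueAt` -/

theorem hasValueAt_iff (Q : Place K F) (z : F) (c : K) :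
    HasValueAt Q z c ↔ Q.adicValuation (z - algebraMap K F c) < 1 := Iff.rfl

theorem HasValueAt.mem {Q : Place K F} {z : F} {c : K} (h : HasValueAt Q z c) :
    z ∈ Q.toValuationSubring := by
  have h1 := mem_of_adicValuation_lt_one Q h
  have := Q.toValuationSubring.add_mem _ _ h1 (Q.algebraMap_mem' c)
  rwa [sub_add_cancel] at this

/-- at a place of degree one every regular function has a value -/
theorem exists_hasValueAt (Q : Place K F) (hQ : Q.deg = 1) {z : F} (hz : z ∈ Q.toValuationSubring) :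
    ∃ c : K, HasValueAt Q z c := by
  obtain ⟨c, hc⟩ := Cech.exists_value_of_deg_eq_one Q hQ hz
  refine ⟨c, ?_⟩
  rw [hasValueAt_iff]
  rcases hc with hc | hc
  · rw [hc, sub_self, map_zero]; exact zero_lt_one
  · have hne : z - algebraMap K F c ≠ 0 := by
      intro h0
      rw [h0, Place.ord_zero] at hc
      omega
    rw [Q.adicValuation_eq_exp_neg_ord hne, ← WithZero.exp_zero, WithZero.exp_lt_exp]
    omega

theorem HasValueAt.of_sub {Q : Place K F} {z z' : F} {c : K} (h : HasValueAt Q z c)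
    (h' : Q.adicValuation (z' - z) < 1) : HasValueAt Q z' c := by
  rw [hasValueAt_iff] at h ⊢
  have : z' - algebraMap K F c = (z' - z) + (z - algebraMap K F c) := by ring
  rw [this]
  exact lt_of_le_of_lt (Valuation.map_add _ _ _) (max_lt h' h)

theorem HasValueAt.mul {Q : Place K F} {z w : F} {c d : K} (hz : HasValueAt Q z c)
    (hw : HasValueAt Q w d) : HasValueAt Q (z * w) (c * d) := by
  rw [hasValueAt_iff] at hz hw ⊢
  have h1 : z * w - algebraMap K F (c * d) =
      (z - algebraMap K F c) * w + algebraMap K F c * (w - algebraMap K F d) := by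
    rw [map_mul]; ring
  have hwO : Q.adicValuation w ≤ 1 :=
    Q.adicValuation_le_one_of_mem (HasValueAt.mem (c := d) hw)
  rw [h1]
  refine lt_of_le_of_lt (Valuation.map_add _ _ _) (max_lt ?_ ?_)
  · rw [map_mul]
    calc Q.adicValuation (z - algebraMap K F c) * Q.adicValuation w
        ≤ Q.adicValuation (z - algebraMap K F c) * 1 := mul_le_mul_right hwO _
      _ < 1 := by rw [mul_one]; exact hz
  · rw [map_mul]
    calc Q.adicValuation (algebraMap K F c) * Q.adicValuation (w - algebraMap K F d)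
        ≤ 1 * Q.adicValuation (w - algebraMap K F d) :=
          mul_le_mul_left (Q.adicValuation_algebraMap_le_one c) _
      _ < 1 := by rw [one_mul]; exact hw

theorem hasValueAt_one (Q : Place K F) : HasValueAt Q (1 : F) (1 : K) := by
  rw [hasValueAt_iff, map_one, sub_self, map_zero]; exact zero_lt_one

theorem HasValueAt.pow {Q : Place K F} {z : F} {c : K} (hz : HasValueAt Q z c) (n : ℕ) :
    HasValueAt Q (z ^ n) (c ^ n) := by
  induction n with
  | zero => rw [pow_zero, pow_zero]; exact hasValueAt_one Q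
  | succ n ih => rw [pow_succ, pow_succ]; exact HasValueAt.mul ih hz

theorem HasValueAt.inv {Q : Place K F} {z : F} {c : K} (hz : HasValueAt Q z c) (hc : c ≠ 0) :
    HasValueAt Q z⁻¹ c⁻¹ := by
  have hcF : algebraMap K F c ≠ 0 := (map_ne_zero _).2 hc
  have hcv : Q.adicValuation (algebraMap K F c) = 1 := by
    refine le_antisymm (Q.adicValuation_algebraMap_le_one c) ?_
    have h1 := Q.adicValuation_algebraMap_le_one c⁻¹
    rw [map_inv₀, map_inv₀] at h1
    have hpos : 0 < Q.adicValuation (algebraMap K F c) := by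
      rw [zero_lt_iff]; exact Q.adicValuation_ne_zero hcF
    rwa [inv_le_one₀ hpos] at h1
  have hzv : Q.adicValuation z = 1 := by
    rw [hasValueAt_iff] at hz
    have h1 : z = (z - algebraMap K F c) + algebraMap K F c := by ring
    rw [h1, Valuation.map_add_eq_of_lt_right _ (by rw [hcv]; exact hz), hcv]
  have hz0 : z ≠ 0 := by
    intro h0
    rw [h0, map_zero] at hzv
    exact zero_ne_one hzv
  rw [hasValueAt_iff] at hz ⊢
  have h2 : z⁻¹ - algebraMap K F c⁻¹ = -(z - algebraMap K F c) * (z⁻¹ * (algebraMap K F c)⁻¹) := by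
    rw [map_inv₀]
    field_simp
    ring
  rw [h2, map_mul, map_mul, map_inv₀, map_inv₀, hzv, hcv, Valuation.map_neg]
  simpa using hz

theorem HasValueAt.ne_zero_of_unit {Q : Place K F} {z : F} {c : K} (hz : HasValueAt Q z c)
    (hzu : z⁻¹ ∈ Q.toValuationSubring) (hz0 : z ≠ 0) : c ≠ 0 := by
  rintro rfl
  rw [hasValueAt_iff, map_zero, sub_zero, adicValuation_lt_one_iff] at hz
  rcases hz with h | h
  · exact hz0 h
  · exact h hzu

end Val


/-! ### the Frobenius image of a place -/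

section Frob

variable {K Fk : Type*} [Field K] [Field Fk] [Algebra K Fk]
variable (V : Fk →+* Fk) (hV : ∀ c : K, V (algebraMap K Fk c) = algebraMap K Fk c)

/-- the place `x' ∘ V` -/
def frobPlace (x' : Place K Fk) (h : x'.toValuationSubring.comap V ≠ ⊤) : Place K Fk :=
  S29lib.D.restrictPlace V (fun a => ⟨a, hV a⟩) x' h

theorem frobPlace_toValuationSubring (x' : Place K Fk) (h : x'.toValuationSubring.comap V ≠ ⊤) :
    (frobPlace V hV x' h).toValuationSubring = x'.toValuationSubring.comap V := rfl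

theorem mem_frobPlace_iff (x' : Place K Fk) (h : x'.toValuationSubring.comap V ≠ ⊤) (z : Fk) :
    z ∈ (frobPlace V hV x' h).toValuationSubring ↔ V z ∈ x'.toValuationSubring := Iff.rfl

theorem adicValuation_frobPlace_lt_one_iff (x' : Place K Fk)
    (h : x'.toValuationSubring.comap V ≠ ⊤) (z : Fk) :
    (frobPlace V hV x' h).adicValuation z < 1 ↔ x'.adicValuation (V z) < 1 := by
  rw [adicValuation_lt_one_iff, adicValuation_lt_one_iff, mem_frobPlace_iff, map_inv₀,
    map_eq_zero_iff V V.injective]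

theorem hasValueAt_frobPlace_iff (x' : Place K Fk) (h : x'.toValuationSubring.comap V ≠ ⊤)
    (z : Fk) (c : K) :
    HasValueAt (frobPlace V hV x' h) z c ↔ HasValueAt x' (V z) c := by
  rw [hasValueAt_iff, hasValueAt_iff, adicValuation_frobPlace_lt_one_iff, map_sub, hV]

/-- if `Fk ^ q ⊆ V Fk` the restriction of a place along `V` is never trivial -/
theorem comap_ne_top_of_pow {q : ℕ} (hq : 0 < q) (hVq : ∀ z : Fk, ∃ w : Fk, V w = z ^ q)
    (x' : Place K Fk) : x'.toValuationSubring.comap V ≠ ⊤ := by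
  intro htop
  obtain ⟨z, hz⟩ : ∃ z : Fk, z ∉ x'.toValuationSubring := by
    by_contra hall
    push Not at hall
    exact x'.ne_top' (SetLike.ext fun z => ⟨fun _ => ValuationSubring.mem_top z, fun _ => hall z⟩)
  obtain ⟨w, hw⟩ := hVq z
  have h1 : w ∈ x'.toValuationSubring.comap V := htop ▸ ValuationSubring.mem_top w
  have h2 : z ^ q ∈ x'.toValuationSubring := hw ▸ h1
  -- `z ∉ O` implies `z ^ q ∉ O`
  have hz0 : z ≠ 0 := fun h0 => hz (h0 ▸ x'.toValuationSubring.zero_mem)
  have hzi : z⁻¹ ∈ x'.toValuationSubring :=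
    (x'.toValuationSubring.mem_or_inv_mem z).resolve_left hz
  apply hz
  obtain ⟨q', rfl⟩ : ∃ q', q = q' + 1 := ⟨q - 1, by omega⟩
  have h3 : z = z ^ (q' + 1) * (z⁻¹) ^ q' := by
    rw [pow_succ, inv_pow]
    field_simp
  rw [h3]
  exact x'.toValuationSubring.mul_mem _ _ h2 (x'.toValuationSubring.pow_mem hzi q')

/-- `frobPlace` is injective when `Fk ^ q ⊆ V Fk` -/
theorem frobPlace_injective_of_pow {q : ℕ} (hq : 0 < q) (hVq : ∀ z : Fk, ∃ w : Fk, V w = z ^ q)
    {x' y' : Place K Fk}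
    (h : frobPlace V hV x' (comap_ne_top_of_pow V hq hVq x') =
      frobPlace V hV y' (comap_ne_top_of_pow V hq hVq y')) : x' = y' := by
  have hmem : ∀ (Q : Place K Fk) (z : Fk), z ∈ Q.toValuationSubring ↔
      z ^ q ∈ Q.toValuationSubring := by
    intro Q z
    constructor
    · exact fun hz => Q.toValuationSubring.pow_mem hz q
    · intro hzq
      by_contra hz
      have hz0 : z ≠ 0 := fun h0 => hz (h0 ▸ Q.toValuationSubring.zero_mem)
      have hzi : z⁻¹ ∈ Q.toValuationSubring :=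
        (Q.toValuationSubring.mem_or_inv_mem z).resolve_left hz
      apply hz
      obtain ⟨q', rfl⟩ : ∃ q', q = q' + 1 := ⟨q - 1, by omega⟩
      have h3 : z = z ^ (q' + 1) * (z⁻¹) ^ q' := by
        rw [pow_succ, inv_pow]
        field_simp
      rw [h3]
      exact Q.toValuationSubring.mul_mem _ _ hzq (Q.toValuationSubring.pow_mem hzi q')
  apply Place.ext
  ext z
  obtain ⟨w, hw⟩ := hVq z
  have h1 := congrArg (fun P : Place K Fk => w ∈ P.toValuationSubring) h
  simp only [mem_frobPlace_iff, hw, eq_iff_iff] at h1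
  rw [hmem x' z, hmem y' z]
  exact h1

end Frob


/-! ### GLUE at a node -/

section GlueNodes

variable {L : Type*} [Field L] {A : ValuationSubring L}
variable {F : Type*} [Field F] [Algebra L F]
variable {Fk : Type*} [Field Fk] [Algebra (IsLocalRing.ResidueField A) Fk]

local notation "k" => IsLocalRing.ResidueField A

theorem hasValueAt_zero_iff {K F : Type*} [Field K] [Field F] [Algebra K F] (Q : Place K F) (c : K) :
    HasValueAt Q (0 : F) c ↔ c = 0 := by
  rw [hasValueAt_iff, zero_sub, Valuation.map_neg]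
  constructor
  · intro h
    by_contra hc
    have h1 := Q.adicValuation_algebraMap_le_one c⁻¹
    rw [map_inv₀, map_inv₀] at h1
    have hpos : 0 < Q.adicValuation (algebraMap K F c) := by
      rw [zero_lt_iff]; exact Q.adicValuation_ne_zero ((map_ne_zero _).2 hc)
    rw [inv_le_one₀ hpos] at h1
    exact absurd h (not_lt.mpr h1)
  · rintro rfl
    rw [map_zero, map_zero]; exact zero_lt_one

/-- **GLUE for functions regular outside the poles of `jF`.** -/
theorem glue_regAway (D1 D2 : GaussDatum A F Fk) (hA1 : RankOne A) (jF : F) (J1 : Fk)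
    (V : Fk →+* Fk) (hV : ∀ c : k, V (algebraMap k Fk c) = algebraMap k Fk c)
    (hdeg : ∀ Q : Place k Fk, Q.deg = 1)
    (hchart1 : ∀ f ∈ regAway L jF, f ∈ D1.O → f ∈ D2.O → D1.redF f ∈ regAway k J1)
    (hchart2 : ∀ f ∈ regAway L jF, f ∈ D1.O → f ∈ D2.O → D2.redF f ∈ regAway k J1)
    (hVJ : V J1 ∈ regAway k J1)
    (hlift : ∀ z : Fk, z ∈ regAway k J1 →
      ∃ f ∈ regAway L jF, f ∈ D1.O ∧ f ∈ D2.O ∧ D1.redF f = z ∧ D2.redF f = V z)
    {Y : F} (hY : Y ∈ regAway L jF) (hY' : Y⁻¹ ∈ regAway L jF) (hY2 : D2.redF Y ≠ 0)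
    (x' : Place k Fk) (hx'J : J1 ∈ x'.toValuationSubring)
    (hx'H : x'.adicValuation (D2.redF Y) < 1) (hx'V : x'.toValuationSubring.comap V ≠ ⊤)
    {f : F} (hf : f ∈ regAway L jF) (hf1 : f ∈ D1.O) (hf2 : f ∈ D2.O) :
    ∃ α : k, HasValueAt (frobPlace V hV x' hx'V) (D1.redF f) α ∧ HasValueAt x' (D2.redF f) α := by
  have hz1 : D1.redF f ∈ regAway k J1 := hchart1 f hf hf1 hf2
  -- value at the Frobenius image
  have hJf : J1 ∈ (frobPlace V hV x' hx'V).toValuationSubring := by
    rw [mem_frobPlace_iff]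
    exact hVJ x' hx'J
  obtain ⟨α, hα⟩ := exists_hasValueAt _ (hdeg _) (hz1 _ hJf)
  refine ⟨α, hα, ?_⟩
  have hα' : HasValueAt x' (V (D1.redF f)) α := (hasValueAt_frobPlace_iff V hV x' hx'V _ _).1 hα
  obtain ⟨n, g₂, hg₂, hpow⟩ := glue_abstract D1 D2 hA1 (regAway L jF) (regAway k J1) V hchart2 hlift
    hchart1 hY hY' hY2 hf hf1 hf2
  refine HasValueAt.of_sub hα' ?_
  -- `u ^ n = H₂ g₂` has valuation `< 1` at `x'`
  have h1 : x'.adicValuation ((D2.redF f - V (D1.redF f)) ^ n) < 1 := by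
    rw [hpow, map_mul]
    calc x'.adicValuation (D2.redF Y) * x'.adicValuation g₂
        ≤ x'.adicValuation (D2.redF Y) * 1 :=
          mul_le_mul_right (x'.adicValuation_le_one_of_mem (hg₂ x' hx'J)) _
      _ < 1 := by rw [mul_one]; exact hx'H
  by_contra hge
  rw [not_lt] at hge
  rw [map_pow] at h1
  exact absurd h1 (not_lt.mpr (one_le_pow₀ hge))

variable [HasPrincipalDivisors L F]

/-- functions with poles on `a (jF)_∞ + b (jF - c₀)_0` become regular outside the poles of `jF`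
after multiplication by `(jF - c₀)^b` -/
theorem mul_pow_mem_regAway {jF w : F} (hw0 : w ≠ 0)
    (hwreg : ∀ Q : Place L F, jF ∈ Q.toValuationSubring → w ∈ Q.toValuationSubring)
    (a b : ℕ) {f : F}
    (hf : f ∈ riemannRochSpace ((a : ℤ) • polesOf (K := L) jF + (b : ℤ) • zerosOf (K := L) w)) :
    f * w ^ b ∈ regAway L jF := by
  intro Q hQ
  rcases eq_or_ne f 0 with rfl | hf0
  · rw [zero_mul]; exact Q.toValuationSubring.zero_mem
  have h1 := (mem_riemannRochSpace_iff.1 hf Q).resolve_left hf0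
  rw [Finsupp.add_apply, Finsupp.smul_apply, Finsupp.smul_apply, polesOf_apply, zerosOf_apply,
    smul_eq_mul, smul_eq_mul] at h1
  have hj : 0 ≤ Q.ord jF := (FF.mem_iff_ord_nonneg Q jF).1 hQ
  have hwn : 0 ≤ Q.ord w := (FF.mem_iff_ord_nonneg Q w).1 (hwreg Q hQ)
  rw [max_eq_right (by omega), max_eq_left hwn, mul_zero, zero_add] at h1
  rw [FF.mem_iff_ord_nonneg, Q.ord_mul hf0 (pow_ne_zero b hw0)]
  have h2 : Q.ord (w ^ b) = (b : ℤ) * Q.ord w := by
    have := Q.ord_zpow w (b : ℤ)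
    rwa [zpow_natCast] at this
  rw [h2]
  omega

/-- **GLUE in the `NodalCtx.glue` shape.** -/
theorem glue_chart (D1 D2 : GaussDatum A F Fk) (hA1 : RankOne A) (jF : F) (J1 : Fk)
    (V : Fk →+* Fk) (hV : ∀ c : k, V (algebraMap k Fk c) = algebraMap k Fk c)
    (hdeg : ∀ Q : Place k Fk, Q.deg = 1)
    (hchart1 : ∀ f ∈ regAway L jF, f ∈ D1.O → f ∈ D2.O → D1.redF f ∈ regAway k J1)
    (hchart2 : ∀ f ∈ regAway L jF, f ∈ D1.O → f ∈ D2.O → D2.redF f ∈ regAway k J1)
    (hVJ : V J1 ∈ regAway k J1)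
    (hlift : ∀ z : Fk, z ∈ regAway k J1 →
      ∃ f ∈ regAway L jF, f ∈ D1.O ∧ f ∈ D2.O ∧ D1.redF f = z ∧ D2.redF f = V z)
    {Y : F} (hY : Y ∈ regAway L jF) (hY' : Y⁻¹ ∈ regAway L jF) (hY2 : D2.redF Y ≠ 0)
    (x' : Place k Fk) (hx'J : J1 ∈ x'.toValuationSubring)
    (hx'H : x'.adicValuation (D2.redF Y) < 1) (hx'V : x'.toValuationSubring.comap V ≠ ⊤)
    {w : F} (hw0 : w ≠ 0)
    (hwreg : ∀ Q : Place L F, jF ∈ Q.toValuationSubring → w ∈ Q.toValuationSubring)
    (hw1 : w ∈ D1.O) (hw2 : w ∈ D2.O) (hwred : D2.redF w ≠ 0)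
    (hx'w : (D2.redF w)⁻¹ ∈ x'.toValuationSubring)
    (a b : ℕ) {f : F}
    (hf : f ∈ riemannRochSpace ((a : ℤ) • polesOf (K := L) jF + (b : ℤ) • zerosOf (K := L) w))
    (hf1 : f ∈ D1.O) (hf2 : f ∈ D2.O) :
    ∃ α : k, HasValueAt (frobPlace V hV x' hx'V) (D1.redF f) α ∧ HasValueAt x' (D2.redF f) α := by
  have hwaff : w ∈ regAway L jF := hwreg
  have hf'aff : f * w ^ b ∈ regAway L jF := mul_pow_mem_regAway hw0 hwreg a b hf
  have hf'1 : f * w ^ b ∈ D1.O := D1.O.mul_mem _ _ hf1 (D1.O.pow_mem hw1 b)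
  have hf'2 : f * w ^ b ∈ D2.O := D2.O.mul_mem _ _ hf2 (D2.O.pow_mem hw2 b)
  obtain ⟨α', hα'1, hα'2⟩ := glue_regAway D1 D2 hA1 jF J1 V hV hdeg hchart1 hchart2 hVJ hlift hY hY'
    hY2 x' hx'J hx'H hx'V hf'aff hf'1 hf'2
  obtain ⟨β, hβ1, hβ2⟩ := glue_regAway D1 D2 hA1 jF J1 V hV hdeg hchart1 hchart2 hVJ hlift hY hY'
    hY2 x' hx'J hx'H hx'V hwaff hw1 hw2
  have hβ0 : β ≠ 0 := HasValueAt.ne_zero_of_unit hβ2 hx'w hwred
  have hwred1 : D1.redF w ≠ 0 := by
    intro h0
    rw [h0, hasValueAt_zero_iff] at hβ1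
    exact hβ0 hβ1
  refine ⟨α' * (β ^ b)⁻¹, ?_, ?_⟩
  · have h1 : D1.redF f = D1.redF (f * w ^ b) * (D1.redF w ^ b)⁻¹ := by
      rw [D1.redF_mul hf1 (D1.O.pow_mem hw1 b), D1.redF_pow hw1, mul_assoc,
        mul_inv_cancel₀ (pow_ne_zero b hwred1), mul_one]
    rw [h1]
    exact HasValueAt.mul hα'1 (HasValueAt.inv (HasValueAt.pow hβ1 b) (pow_ne_zero b hβ0))
  · have h1 : D2.redF f = D2.redF (f * w ^ b) * (D2.redF w ^ b)⁻¹ := by
      rw [D2.redF_mul hf2 (D2.O.pow_mem hw2 b), D2.redF_pow hw2, mul_assoc,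
        mul_inv_cancel₀ (pow_ne_zero b hwred), mul_one]
    rw [h1]
    exact HasValueAt.mul hα'2 (HasValueAt.inv (HasValueAt.pow hβ2 b) (pow_ne_zero b hβ0))

end GlueNodes

end Fermat.Agent.LSb.Unit
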