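/-
LSb / Unit / ModEq  (helper4)

The modular equation of the unit `Y₀ = p^12 Δ(q^p)/Δ(q)` (S28lib, brick B) WITH ITS CONSTANT TERM:
`∑_{j ≤ p+1} (-1)^j E_j(j) Y₀^{p+1-j} = 0`, `E_0 = 1`, `E_j` with algebraic-integer coefficients, and
`E_{p+1} = ε p^12` for a unit `ε` (a root of unity).  Consequence: `X₀ = p^12 / Y₀ = Δ(q)/Δ(q^p)` is
integral over `ℤ̄[j]` as well.

The constant term is the product of the `p + 1` formal conjugates; it is a polynomial in `j(u^p)`
of `u`-order `0`, hence a constant, equal to the product of the leading coefficients.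
-/
import Fermat.Agent.S28lib.UnitB
import Fermat.Agent.S28lib.Series

set_option autoImplicit false

noncomputable section

namespace Fermat.Agent.LSb.Unit

open ModularCurve HahnSeries Fermat.Agent.S28lib Fermat.Agent.S28lib.BrickB

/-! ### order and leading coefficient of finite products (over a domain) -/

theorem prod_ne_zero_order_leadingCoeff {k : Type*} [Field k] {ι : Type*} (s : Finset ι)
    (f : ι → LaurentSeries k) (hf : ∀ i ∈ s, f i ≠ 0) :
    (∏ i ∈ s, f i) ≠ 0 ∧ (∏ i ∈ s, f i).order = ∑ i ∈ s, (f i).order ∧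
      (∏ i ∈ s, f i).leadingCoeff = ∏ i ∈ s, (f i).leadingCoeff := by
  classical
  induction s using Finset.induction_on with
  | empty => simp
  | insert a s ha ih =>
    obtain ⟨h1, h2, h3⟩ := ih fun i hi => hf i (Finset.mem_insert_of_mem hi)
    have ha0 : f a ≠ 0 := hf a (Finset.mem_insert_self a s)
    rw [Finset.prod_insert ha, Finset.sum_insert ha, Finset.prod_insert ha]
    refine ⟨mul_ne_zero ha0 h1, ?_, ?_⟩
    · rw [HahnSeries.order_mul ha0 h1, h2]
    · rw [HahnSeries.leadingCoeff_mul, h3]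

/-- a nonzero series with `coeff n = c ≠ 0` and nothing below has order `n`, leading coeff `c` -/
theorem order_leadingCoeff_of_coeff {k : Type*} [Field k] {f : LaurentSeries k} {n : ℤ} {c : k}
    (hc : c ≠ 0) (h1 : f.coeff n = c) (h2 : ∀ m, m < n → f.coeff m = 0) :
    f ≠ 0 ∧ f.order = n ∧ f.leadingCoeff = c := by
  have hne : f ≠ 0 := fun h => hc (by rw [← h1, h, HahnSeries.coeff_zero])
  have ho : f.order = n := order_eq_of_coeff (by rw [h1]; exact hc) h2
  refine ⟨hne, ho, ?_⟩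
  rw [HahnSeries.leadingCoeff_eq, ho, h1]


/-! ### leading coefficients of the basic series -/

section Lead

variable {k : Type*} [Field k]

theorem leadingCoeff_qExpand (e : ℕ) [NeZero e] (f : LaurentSeries k) :
    (qExpand k e f).leadingCoeff = f.leadingCoeff := by
  rw [HahnSeries.leadingCoeff_eq, HahnSeries.leadingCoeff_eq, order_qExpand, qExpand_coeff_mul]

theorem leadingCoeff_twist (ξ : kˣ) (f : LaurentSeries k) :
    (twist ξ f).leadingCoeff = ((ξ ^ f.order : kˣ) : k) * f.leadingCoeff := by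
  rw [HahnSeries.leadingCoeff_eq, HahnSeries.leadingCoeff_eq, order_twist, twist_coeff]

theorem leadingCoeff_DeltaQ : (DeltaQ k).leadingCoeff = 1 := by
  rw [HahnSeries.leadingCoeff_eq, order_DeltaQ, DeltaQ_coeff_one]

theorem DeltaInvQ_ne_zero : DeltaInvQ k ≠ 0 := by
  intro h
  have := DeltaQ_mul_DeltaInvQ k
  rw [h, mul_zero] at this
  exact zero_ne_one this

theorem order_DeltaInvQ : (DeltaInvQ k).order = -1 := by
  have h := congrArg HahnSeries.order (DeltaQ_mul_DeltaInvQ k)
  rw [HahnSeries.order_mul (DeltaQ_ne_zero k) DeltaInvQ_ne_zero, order_DeltaQ,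
    HahnSeries.order_one] at h
  omega

theorem leadingCoeff_DeltaInvQ : (DeltaInvQ k).leadingCoeff = 1 := by
  have h := congrArg HahnSeries.leadingCoeff (DeltaQ_mul_DeltaInvQ k)
  rwa [HahnSeries.leadingCoeff_mul, leadingCoeff_DeltaQ, one_mul, HahnSeries.leadingCoeff_one] at h

theorem gInf_ne_zero (p : ℕ) [NeZero p] (hp : (p : k) ≠ 0) : gInf k p ≠ 0 := by
  rw [gInf]
  refine mul_ne_zero ?_ (mul_ne_zero (qExpand_ne_zero p (DeltaQ_ne_zero k)) DeltaInvQ_ne_zero)
  intro h
  have h1 := congrArg (fun x : LaurentSeries k => x.coeff 0) h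
  simp only [HahnSeries.C_apply, HahnSeries.coeff_single_same, HahnSeries.coeff_zero] at h1
  exact pow_ne_zero 12 hp h1

theorem order_gInf (p : ℕ) [NeZero p] (hp : (p : k) ≠ 0) : (gInf k p).order = (p : ℤ) - 1 := by
  have hC : (HahnSeries.C ((p : k) ^ 12) : LaurentSeries k) ≠ 0 := by
    intro h
    have h1 := congrArg (fun x : LaurentSeries k => x.coeff 0) h
    simp only [HahnSeries.C_apply, HahnSeries.coeff_single_same, HahnSeries.coeff_zero] at h1
    exact pow_ne_zero 12 hp h1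
  rw [gInf, HahnSeries.order_mul hC
    (mul_ne_zero (qExpand_ne_zero p (DeltaQ_ne_zero k)) DeltaInvQ_ne_zero),
    HahnSeries.order_C, HahnSeries.order_mul (qExpand_ne_zero p (DeltaQ_ne_zero k)) DeltaInvQ_ne_zero,
    order_qExpand, order_DeltaQ, order_DeltaInvQ]
  ring

theorem leadingCoeff_gInf (p : ℕ) [NeZero p] : (gInf k p).leadingCoeff = (p : k) ^ 12 := by
  rw [gInf, HahnSeries.leadingCoeff_mul, HahnSeries.leadingCoeff_mul,
    leadingCoeff_qExpand p (DeltaQ k), leadingCoeff_DeltaQ, leadingCoeff_DeltaInvQ,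
    mul_one, mul_one, HahnSeries.C_apply, HahnSeries.leadingCoeff_of_single]

end Lead


/-! ### the formal roots: orders and leading coefficients -/

section Roots

variable (p : ℕ) [NeZero p] (ζ : ℂˣ)

theorem natCast_ne_zero_C : (p : ℂ) ≠ 0 := by exact_mod_cast NeZero.ne p

theorem rootFun_none_facts :
    rootFun p ζ none ≠ 0 ∧ (rootFun p ζ none).order = (p : ℤ) * ((p : ℤ) - 1) ∧
      (rootFun p ζ none).leadingCoeff = (p : ℂ) ^ 12 := by
  have h0 := gInf_ne_zero (k := ℂ) p (natCast_ne_zero_C p)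
  refine ⟨qExpand_ne_zero p h0, ?_, ?_⟩
  · show (qExpand ℂ p (gInf ℂ p)).order = _
    rw [order_qExpand, order_gInf p (natCast_ne_zero_C p)]
  · show (qExpand ℂ p (gInf ℂ p)).leadingCoeff = _
    rw [leadingCoeff_qExpand, leadingCoeff_gInf]

theorem rootFun_some_facts (b : Fin p) :
    rootFun p ζ (some b) ≠ 0 ∧ (rootFun p ζ (some b)).order = 1 - (p : ℤ) ∧
      (rootFun p ζ (some b)).leadingCoeff = ((ζ ^ (b : ℕ) : ℂˣ) : ℂ) := by
  have h1 : twist (ζ ^ (b : ℕ)) (DeltaQ ℂ) ≠ 0 := twist_ne_zero _ (DeltaQ_ne_zero ℂ)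
  have h2 : qExpand ℂ p (DeltaInvQ ℂ) ≠ 0 := qExpand_ne_zero p DeltaInvQ_ne_zero
  refine ⟨mul_ne_zero h1 h2, ?_, ?_⟩
  · show (twist (ζ ^ (b : ℕ)) (DeltaQ ℂ) * qExpand ℂ p (DeltaInvQ ℂ)).order = _
    rw [HahnSeries.order_mul h1 h2, order_twist, order_DeltaQ, order_qExpand, order_DeltaInvQ]
    ring
  · show (twist (ζ ^ (b : ℕ)) (DeltaQ ℂ) * qExpand ℂ p (DeltaInvQ ℂ)).leadingCoeff = _
    rw [HahnSeries.leadingCoeff_mul, leadingCoeff_twist, leadingCoeff_qExpand, leadingCoeff_DeltaQ,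
      leadingCoeff_DeltaInvQ, order_DeltaQ, zpow_one, mul_one, mul_one]

/-- the product of the formal roots: nonzero, of order `0`, leading coefficient `p^12 ∏ ζ^b` -/
theorem prod_rootFun_facts :
    (∏ o, rootFun p ζ o) ≠ 0 ∧ (∏ o, rootFun p ζ o).order = 0 ∧
      (∏ o, rootFun p ζ o).leadingCoeff = (p : ℂ) ^ 12 * ∏ b : Fin p, ((ζ ^ (b : ℕ) : ℂˣ) : ℂ) := by
  obtain ⟨h1, h2, h3⟩ := prod_ne_zero_order_leadingCoeff Finset.univ (rootFun p ζ) (by
    intro o _
    cases o with
    | none => exact (rootFun_none_facts p ζ).1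
    | some b => exact (rootFun_some_facts p ζ b).1)
  refine ⟨h1, ?_, ?_⟩
  · rw [h2, Fintype.sum_option, (rootFun_none_facts p ζ).2.1]
    simp only [(rootFun_some_facts p ζ _).2.1, Finset.sum_const, Finset.card_univ, Fintype.card_fin,
      nsmul_eq_mul]
    ring
  · rw [h3, Fintype.prod_option, (rootFun_none_facts p ζ).2.2]
    simp only [(rootFun_some_facts p ζ _).2.2]

end Roots


/-! ### the modular equation with its constant term -/

theorem esymm_card_eq_prod {R : Type*} [CommSemiring R] (s : Multiset R) :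
    s.esymm (Multiset.card s) = s.prod := by
  rw [Multiset.esymm, Multiset.powersetCard_self]
  simp

/-- the unit `∏_{b < p} ζ^b` -/
theorem prod_zeta_pow_pow {ζ : ℂˣ} {p : ℕ} [NeZero p] (hζ : ζ ^ p = 1) :
    (∏ b : Fin p, ((ζ ^ (b : ℕ) : ℂˣ) : ℂ)) ^ p = 1 := by
  rw [← Finset.prod_pow]
  refine Finset.prod_eq_one fun b _ => ?_
  rw [← Units.val_pow_eq_pow_val, ← pow_mul, mul_comm, pow_mul, hζ, one_pow, Units.val_one]

/-- **The modular equation of the unit over `ℂ`, with algebraic-integer coefficients and constant term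
`ε p^12`, `ε^p = 1`.** -/
theorem exists_esymm_polys_const (p : ℕ) [NeZero p] (hp : p.Prime) :
    ∃ (E : ℕ → Polynomial ℂ) (ε : ℂ), E 0 = 1 ∧ (∀ j i, IsIntegral ℤ ((E j).coeff i)) ∧
      ε ^ p = 1 ∧ E (p + 1) = Polynomial.C (ε * (p : ℂ) ^ 12) ∧
      ∑ j ∈ Finset.range (p + 2), (-1 : LaurentSeries ℂ) ^ j *
        (Polynomial.aeval (jqModC ℂ) (E j) * gInf ℂ p ^ (p + 1 - j)) = 0 := by
  classical
  have hζ0 : IsPrimitiveRoot (Complex.exp (2 * Real.pi * Complex.I / p)) p :=
    Complex.isPrimitiveRoot_exp p (NeZero.ne p)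
  set ζ : ℂˣ := (hζ0.isUnit (NeZero.ne p)).unit with hζdef
  have hζ : IsPrimitiveRoot ζ p := by
    rw [← IsPrimitiveRoot.coe_units_iff]
    exact hζ0
  set f := rootFun p ζ with hf
  set s : Multiset (LaurentSeries ℂ) := Finset.univ.val.map f with hs
  set φ : Polynomial ℂ →+* LaurentSeries ℂ :=
    (qExpand ℂ p).comp ((Polynomial.aeval (jqModC ℂ) : Polynomial ℂ →ₐ[ℂ] LaurentSeries ℂ) :
      Polynomial ℂ →+* LaurentSeries ℂ) with hφ
  have hφ_apply : ∀ P, φ P = qExpand ℂ p (Polynomial.aeval (jqModC ℂ) P) := fun P => rfl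
  -- closure under division by naturals
  have hdiv : ∀ (n : ℕ) (x : LaurentSeries ℂ), 0 < n → (n : LaurentSeries ℂ) * x ∈ φ.range →
      x ∈ φ.range := by
    rintro n x hn ⟨P, hP⟩
    refine ⟨Polynomial.C ((n : ℂ)⁻¹) * P, ?_⟩
    have hn0 : (n : ℂ) ≠ 0 := by exact_mod_cast hn.ne'
    have hC : φ (Polynomial.C ((n : ℂ)⁻¹)) * (n : LaurentSeries ℂ) = 1 := by
      rw [hφ_apply, Polynomial.aeval_C, algebraMap_eq_C, qExpand_C, ← map_natCast (HahnSeries.C),
        ← map_mul, inv_mul_cancel₀ hn0, map_one]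
    rw [map_mul, hP, ← mul_assoc, hC, one_mul]
  have hps : ∀ j : ℕ, 0 < j → (∑ o, f o ^ j) ∈ φ.range := by
    intro j hj
    obtain ⟨P, hP⟩ := psum_rootFun p ζ hp hζ j hj
    exact ⟨P, hP.symm⟩
  have hes : ∀ k, s.esymm k ∈ φ.range := esymm_mem_of_psum_mem φ.range hdiv f hps
  choose E hE using hes
  have hint : ∀ k, s.esymm k ∈ intCoeffSubring := by
    intro k
    refine esymm_mem_subring _ _ (fun x hx => ?_) k
    obtain ⟨o, -, rfl⟩ := Multiset.mem_map.mp hx
    exact rootFun_mem_intCoeffSubring p ζ hζ.pow_eq_one o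
  have hE0 : s.esymm 0 = φ 1 := by
    rw [map_one]
    simp [Multiset.esymm]
  have hcard : Multiset.card s = p + 1 := by
    simp [hs]
  -- the constant term
  set ε : ℂ := ∏ b : Fin p, ((ζ ^ (b : ℕ) : ℂˣ) : ℂ) with hε
  have hεp : ε ^ p = 1 := prod_zeta_pow_pow hζ.pow_eq_one
  have hprod : s.esymm (p + 1) = ∏ o, rootFun p ζ o := by
    rw [← hcard, esymm_card_eq_prod, hs, hf]
    rfl
  obtain ⟨hP0, hPord, hPlead⟩ := prod_rootFun_facts p ζ
  have hEtop : E (p + 1) = Polynomial.C (ε * (p : ℂ) ^ 12) := by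
    have h1 : φ (E (p + 1)) = ∏ o, rootFun p ζ o := by rw [hE, hprod]
    have hEne : E (p + 1) ≠ 0 := by
      intro h0
      rw [h0, map_zero] at h1
      exact hP0 h1.symm
    have hord : (φ (E (p + 1))).order = (p : ℤ) * (-(((E (p + 1)).natDegree : ℕ) : ℤ)) := by
      rw [hφ_apply, order_qExpand]
      congr 1
      exact order_evalJ_jqModC hEne
    rw [h1, hPord] at hord
    have hp0 : (p : ℤ) ≠ 0 := by exact_mod_cast NeZero.ne p
    have hdeg : (E (p + 1)).natDegree = 0 := by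
      rcases mul_eq_zero.mp hord.symm with h | h
      · exact absurd h hp0
      · exact_mod_cast neg_eq_zero.mp h
    obtain ⟨c, hc⟩ : ∃ c, E (p + 1) = Polynomial.C c :=
      ⟨_, Polynomial.eq_C_of_natDegree_eq_zero hdeg⟩
    rw [hc]
    congr 1
    have h2 : φ (Polynomial.C c) = HahnSeries.C c := by
      rw [hφ_apply, Polynomial.aeval_C, algebraMap_eq_C, qExpand_C]
    rw [hc, h2] at h1
    have h3 := congrArg HahnSeries.leadingCoeff h1
    rw [hPlead, HahnSeries.C_apply, HahnSeries.leadingCoeff_of_single] at h3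
    rw [h3, mul_comm]
  refine ⟨fun k => if k = 0 then 1 else E k, ε, by simp, ?_, hεp, ?_, ?_⟩
  · intro j i
    have hmem : Polynomial.aeval (jqModC ℂ) (if j = 0 then (1 : Polynomial ℂ) else E j) ∈
        intCoeffSubring := by
      apply of_qExpand_mem_intCoeffSubring p
      rw [← hφ_apply]
      split_ifs with hj
      · rw [← hE0]; exact hint 0
      · rw [hE j]; exact hint j
    exact coeff_mem_of_aeval_jq_coeff_mem ℂ (integralClosure ℤ ℂ).toSubring.toAddSubgroup _ _
      le_rfl hmem i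
  · show (if p + 1 = 0 then 1 else E (p + 1)) = _
    rw [if_neg (Nat.succ_ne_zero p), hEtop]
  · have hV := Multiset.prod_X_sub_X_eq_sum_esymm s
    have h0 : ((s.map fun t => Polynomial.X - Polynomial.C t).prod).eval (f none) = 0 := by
      rw [Polynomial.eval_multiset_prod]
      apply Multiset.prod_eq_zero
      rw [Multiset.mem_map]
      refine ⟨Polynomial.X - Polynomial.C (f none), Multiset.mem_map.mpr ⟨f none, ?_, rfl⟩, by simp⟩
      exact Multiset.mem_map.mpr ⟨none, Finset.mem_univ_val _, rfl⟩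
    rw [hV, hcard, Polynomial.eval_finsetSum] at h0
    simp only [Polynomial.eval_mul, Polynomial.eval_pow, Polynomial.eval_neg, Polynomial.eval_one,
      Polynomial.eval_C, Polynomial.eval_X] at h0
    apply qExpand_injective (R := ℂ) p
    rw [map_zero, map_sum, ← h0]
    refine Finset.sum_congr rfl fun j _ => ?_
    rw [map_mul, map_mul, map_pow, map_pow, map_neg, map_one, ← hφ_apply]
    congr 2
    show φ (if j = 0 then 1 else E j) = s.esymm j
    split_ifs with hj
    · rw [hj, hE0]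
    · rw [hE j]


/-! ### descent to the ring of all algebraic integers -/

local notation "Zb" => integralClosure ℤ ℂ

/-- **The modular equation of the unit over `ℤ̄`, with constant term `ε p^12`, `ε` a unit.** -/
theorem exists_esymm_polys_const_int (p : ℕ) [NeZero p] (hp : p.Prime) :
    ∃ (E : ℕ → Polynomial Zb) (ε : Zbˣ), E 0 = 1 ∧
      E (p + 1) = Polynomial.C ((ε : Zb) * (p : Zb) ^ 12) ∧
      ∑ j ∈ Finset.range (p + 2), (-1 : LaurentSeries Zb) ^ j *
        (Polynomial.aeval (jqModC Zb) (E j) * gInf Zb p ^ (p + 1 - j)) = 0 := by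
  obtain ⟨E, ε, hE0, hEint, hεp, hEtop, hsum⟩ := exists_esymm_polys_const p hp
  set ιC : Zb →+* ℂ := algebraMap Zb ℂ with hιC
  have hinj : Function.Injective ιC := Subtype.val_injective
  have hlift : ∀ j, ∃ E' : Polynomial Zb, E'.map ιC = E j := by
    intro j
    have : E j ∈ Polynomial.lifts ιC := by
      rw [Polynomial.lifts_iff_coeff_lifts]
      intro n
      exact ⟨⟨(E j).coeff n, hEint j n⟩, rfl⟩
    exact (Polynomial.mem_lifts _).mp this
  choose E' hE' using hlift
  -- the unit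
  have hp0 : 0 < p := NeZero.pos p
  have hεint : IsIntegral ℤ ε := IsIntegral.of_pow hp0 (by rw [hεp]; exact isIntegral_one)
  have hεinv : ε * ε ^ (p - 1) = 1 := by
    rw [← pow_succ', Nat.sub_add_cancel hp0, hεp]
  set ε' : Zbˣ := ⟨⟨ε, hεint⟩, ⟨ε ^ (p - 1), hεint.pow _⟩,
    Subtype.ext hεinv, Subtype.ext (by rw [mul_comm] at hεinv; exact hεinv)⟩ with hε'
  refine ⟨E', ε', ?_, ?_, ?_⟩
  · apply Polynomial.map_injective ιC hinj
    rw [hE', hE0, Polynomial.map_one]
  · apply Polynomial.map_injective ιC hinj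
    rw [hE', hEtop, Polynomial.map_C]
    congr 1
  · apply BrickB.coeffMap_injective ιC hinj
    rw [map_zero, map_sum, ← hsum]
    refine Finset.sum_congr rfl fun j _ => ?_
    rw [map_mul, map_mul, map_pow, map_pow, map_neg, map_one, coeffMap_aeval, coeffMap_jqModC,
      coeffMap_gInf, hE']

end Fermat.Agent.LSb.Unit
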