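/-
LSb / Unit / Monic  (helper4)

From a Vieta-type relation `∑_{j ≤ n} (-1)^j φ(e_j) y^{n-j} = 0`, `e_0 = 1`, to monic equations for
`y` and — when `e_n = u c`, `u` a unit, `x y = φ c`, `φ c` regular — for `x`.
-/
import Mathlib

set_option autoImplicit false

noncomputable section

namespace Fermat.Agent.LSb.Unit

open Polynomial

variable {R₀ S : Type*} [CommRing R₀] [CommRing S] (φ : R₀ →+* S)

/-- the monic polynomial `X^n + ∑_{j < n} a_j X^j` -/
def monicOf (n : ℕ) (a : ℕ → R₀) : R₀[X] :=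
  X ^ n + ∑ j ∈ Finset.range n, C (a j) * X ^ j

theorem monicOf_degree_lt (n : ℕ) (a : ℕ → R₀) :
    (∑ j ∈ Finset.range n, C (a j) * X ^ j : R₀[X]).degree < ((n : ℕ) : WithBot ℕ) := by
  refine lt_of_le_of_lt (degree_sum_le _ _) ?_
  rw [Finset.sup_lt_iff (WithBot.bot_lt_coe _)]
  intro j hj
  refine lt_of_le_of_lt (degree_C_mul_X_pow_le _ _) ?_
  exact_mod_cast Finset.mem_range.mp hj

theorem monicOf_monic (n : ℕ) (a : ℕ → R₀) : (monicOf n a).Monic :=
  monic_X_pow_add (monicOf_degree_lt n a)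

theorem monicOf_natDegree [Nontrivial R₀] (n : ℕ) (a : ℕ → R₀) : (monicOf n a).natDegree = n := by
  apply natDegree_eq_of_degree_eq_some
  rw [monicOf, degree_add_eq_left_of_degree_lt (by rw [degree_X_pow]; exact monicOf_degree_lt n a),
    degree_X_pow]

theorem monicOf_eval₂ (n : ℕ) (a : ℕ → R₀) (y : S) :
    (monicOf n a).eval₂ φ y = y ^ n + ∑ j ∈ Finset.range n, φ (a j) * y ^ j := by
  rw [monicOf, eval₂_add, eval₂_pow, eval₂_X, eval₂_finsetSum]
  congr 1
  refine Finset.sum_congr rfl fun j _ => ?_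
  rw [eval₂_mul, eval₂_C, eval₂_pow, eval₂_X]

/-- monic equation for `y` -/
theorem exists_monic_of_rel (n : ℕ) (e : ℕ → R₀) (he0 : e 0 = 1) (y : S)
    (h : ∑ j ∈ Finset.range (n + 1), (-1 : S) ^ j * (φ (e j) * y ^ (n - j)) = 0) :
    (monicOf n fun i => (-1) ^ (n - i) * e (n - i)).eval₂ φ y = 0 := by
  rw [monicOf_eval₂, ← h, Finset.sum_range_succ', add_comm]
  congr 1
  · rw [← Finset.sum_range_reflect]
    refine Finset.sum_congr rfl fun j hj => ?_
    have hj' := Finset.mem_range.mp hj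
    have h1 : n - (n - 1 - j) = j + 1 := by omega
    have h2 : n - (j + 1) = n - 1 - j := by omega
    rw [h1, h2, map_mul, map_pow, map_neg, map_one, mul_assoc]
  · rw [pow_zero, one_mul, he0, map_one, one_mul, Nat.sub_zero]

/-- monic equation for `x = c / y` -/
theorem exists_monic_of_rel_inv (n : ℕ) (e : ℕ → R₀) (y : S)
    (h : ∑ j ∈ Finset.range (n + 1), (-1 : S) ^ j * (φ (e j) * y ^ (n - j)) = 0)
    (u : R₀ˣ) (c : R₀) (hen : e n = u * c) (x : S) (hxy : x * y = φ c)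
    (hreg : ∀ z : S, φ c * z = 0 → z = 0) :
    (monicOf n fun j => (-1) ^ (n + j) * ((u⁻¹ : R₀ˣ) : R₀) * e j * c ^ (n - j - 1)).eval₂ φ x = 0 := by
  rw [monicOf_eval₂]
  -- multiply the relation by `x ^ n`
  have h1 : ∑ j ∈ Finset.range (n + 1), (-1 : S) ^ j * (φ (e j) * (φ c ^ (n - j) * x ^ j)) = 0 := by
    have h2 := congrArg (fun z => x ^ n * z) h
    simp only [mul_zero, Finset.mul_sum] at h2
    rw [← h2]
    refine Finset.sum_congr rfl fun j hj => ?_
    have hj' : j ≤ n := Nat.lt_succ_iff.mp (Finset.mem_range.mp hj)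
    have h3 : x ^ n = x ^ j * x ^ (n - j) := by rw [← pow_add, Nat.add_sub_cancel' hj']
    rw [h3, ← hxy, mul_pow]
    ring
  rw [Finset.sum_range_succ, Nat.sub_self, pow_zero, one_mul, hen, map_mul] at h1
  -- factor out `φ c`
  have h4 : φ c * ((-1 : S) ^ n * (φ u * x ^ n) +
      ∑ j ∈ Finset.range n, (-1 : S) ^ j * (φ (e j) * (φ c ^ (n - j - 1) * x ^ j))) = 0 := by
    rw [← h1, mul_add, Finset.mul_sum, add_comm]
    congr 1
    · refine Finset.sum_congr rfl fun j hj => ?_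
      have hj' := Finset.mem_range.mp hj
      have h5 : n - j = (n - j - 1) + 1 := by omega
      rw [h5, pow_succ]
      have h6 : n - j - 1 + 1 - 1 = n - j - 1 := by omega
      rw [h6]
      ring
    · ring
  have h5 := hreg _ h4
  -- multiply by `(-1)^n φ(u⁻¹)`
  have h6 := congrArg (fun z => (-1 : S) ^ n * φ ((u⁻¹ : R₀ˣ) : R₀) * z) h5
  simp only [mul_zero] at h6
  rw [← h6, mul_add, Finset.mul_sum]
  have hu : φ ((u⁻¹ : R₀ˣ) : R₀) * φ (u : R₀) = 1 := by
    rw [← map_mul, Units.inv_mul, map_one]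
  have hsq : (-1 : S) ^ n * (-1) ^ n = 1 := by
    rw [← pow_add, ← two_mul, pow_mul]
    simp
  congr 1
  · calc x ^ n = ((-1 : S) ^ n * (-1) ^ n) * (φ ((u⁻¹ : R₀ˣ) : R₀) * φ (u : R₀)) * x ^ n := by
          rw [hsq, hu, one_mul, one_mul]
      _ = _ := by ring
  · refine Finset.sum_congr rfl fun j _ => ?_
    rw [map_mul, map_mul, map_mul, map_pow, map_pow, map_neg, map_one, pow_add]
    ring

end Fermat.Agent.LSb.Unit
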