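/-
LSb / Unit / XY  (helper4)

The two modular units of level `p` as Laurent series over an arbitrary commutative ring `R`:
`Y0 R p = p^12 Δ(q^p)/Δ(q)` (`= S28lib.BrickB.gInf R p`) and `X0 R p = Δ(q)/Δ(q^p)`, with
`X0 * Y0 = p^12`, and MONIC equations of degree `p + 1` for both over `ℤ̄[j]`, transported to every
ring receiving `ℤ̄`.
-/
import Fermat.Agent.LSb.Unit.ModEq
import Fermat.Agent.LSb.Unit.Monic

set_option autoImplicit false

noncomputable section

namespace Fermat.Agent.LSb.Unit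

open ModularCurve HahnSeries Fermat.Agent.S28lib Fermat.Agent.S28lib.BrickB

section Def

variable (R : Type*) [CommRing R] (p : ℕ) [NeZero p]

/-- `Δ(q)/Δ(q^p)` over `R` -/
def X0 : LaurentSeries R := DeltaQ R * qExpand R p (DeltaInvQ R)

/-- `p^12 Δ(q^p)/Δ(q)` over `R` -/
abbrev Y0 : LaurentSeries R := gInf R p

theorem X0_mul_Y0 : X0 R p * Y0 R p = HahnSeries.C ((p : R) ^ 12) := by
  rw [X0, Y0, gInf]
  have h1 : DeltaQ R * DeltaInvQ R = 1 := DeltaQ_mul_DeltaInvQ R
  have h2 : qExpand R p (DeltaQ R) * qExpand R p (DeltaInvQ R) = 1 := by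
    rw [← map_mul, h1, map_one]
  calc DeltaQ R * qExpand R p (DeltaInvQ R) *
        (HahnSeries.C ((p : R) ^ 12) * (qExpand R p (DeltaQ R) * DeltaInvQ R))
      = HahnSeries.C ((p : R) ^ 12) * ((DeltaQ R * DeltaInvQ R) *
          (qExpand R p (DeltaQ R) * qExpand R p (DeltaInvQ R))) := by ring
    _ = HahnSeries.C ((p : R) ^ 12) := by rw [h1, h2, mul_one, mul_one]

variable {R} in
theorem coeffMap_X0 {S : Type*} [CommRing S] (f : R →+* S) : coeffMap f (X0 R p) = X0 S p := by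
  rw [X0, X0, map_mul, coeffMap_qExpand, BrickB.coeffMap_DeltaQ, coeffMap_DeltaInvQ]

end Def

local notation "Zb" => integralClosure ℤ ℂ

/-- the evaluation `P ↦ P(j)` as a ring homomorphism, over any ring -/
def evalJR (R : Type*) [CommRing R] : Polynomial R →+* LaurentSeries R :=
  (Polynomial.aeval (jqModC R) : Polynomial R →ₐ[R] LaurentSeries R)

theorem evalJR_apply (R : Type*) [CommRing R] (P : Polynomial R) :
    evalJR R P = Polynomial.aeval (jqModC R) P := rfl

theorem coeffMap_evalJR {R S : Type*} [CommRing R] [CommRing S] (f : R →+* S) (P : Polynomial R) :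
    coeffMap f (evalJR R P) = evalJR S (P.map f) := by
  rw [evalJR_apply, evalJR_apply, BrickB.coeffMap_aeval, coeffMap_jqModC]

/-- **Monic equations over `ℤ̄[j]`** for `Y0` and `X0`. -/
theorem exists_monic_Zb (p : ℕ) [NeZero p] (hp : p.Prime) :
    ∃ ΨY ΨX : Polynomial (Polynomial Zb), ΨY.Monic ∧ ΨX.Monic ∧
      ΨY.eval₂ (evalJR Zb) (Y0 Zb p) = 0 ∧ ΨX.eval₂ (evalJR Zb) (X0 Zb p) = 0 := by
  obtain ⟨E, ε, hE0, hEtop, hsum⟩ := exists_esymm_polys_const_int p hp
  have hsum' : ∑ j ∈ Finset.range (p + 1 + 1), (-1 : LaurentSeries Zb) ^ j *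
      (evalJR Zb (E j) * Y0 Zb p ^ (p + 1 - j)) = 0 := hsum
  -- the unit `C ε` of `ℤ̄[j]`
  set u : (Polynomial Zb)ˣ := Units.map (Polynomial.C : Zb →+* Polynomial Zb).toMonoidHom ε with hu
  have hen : E (p + 1) = (u : Polynomial Zb) * Polynomial.C ((p : Zb) ^ 12) := by
    rw [hEtop, Polynomial.C_mul]
    rfl
  have hφc : evalJR Zb (Polynomial.C ((p : Zb) ^ 12)) = HahnSeries.C ((p : Zb) ^ 12) := by
    rw [evalJR_apply, Polynomial.aeval_C, algebraMap_eq_C]
  have hxy : X0 Zb p * Y0 Zb p = evalJR Zb (Polynomial.C ((p : Zb) ^ 12)) := by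
    rw [hφc, X0_mul_Y0]
  have hreg : ∀ z : LaurentSeries Zb, evalJR Zb (Polynomial.C ((p : Zb) ^ 12)) * z = 0 → z = 0 := by
    intro z hz
    rw [hφc] at hz
    rcases mul_eq_zero.mp hz with h | h
    · exfalso
      have h1 := congrArg (fun x : LaurentSeries Zb => x.coeff 0) h
      simp only [HahnSeries.C_apply, HahnSeries.coeff_single_same, HahnSeries.coeff_zero] at h1
      have hp0 : (p : Zb) ≠ 0 := by
        intro h0
        have := congrArg (algebraMap Zb ℂ) h0
        rw [map_natCast, map_zero] at this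
        exact (natCast_ne_zero_C p) this
      exact pow_ne_zero 12 hp0 h1
    · exact h
  exact ⟨_, _, monicOf_monic (p + 1) _, monicOf_monic (p + 1) _,
    exists_monic_of_rel (evalJR Zb) (p + 1) E hE0 (Y0 Zb p) hsum',
    exists_monic_of_rel_inv (evalJR Zb) (p + 1) E (Y0 Zb p) hsum' u _ hen (X0 Zb p) hxy hreg⟩

/-- **Monic equations over `R[j]`, `R` any ring receiving `ℤ̄`**, with coefficients in the image. -/
theorem exists_monic_of_ringHom (p : ℕ) [NeZero p] (hp : p.Prime) {R : Type*} [CommRing R]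
    (ι : Zb →+* R) :
    ∃ ΨY ΨX : Polynomial (Polynomial Zb), ΨY.Monic ∧ ΨX.Monic ∧
      (ΨY.map (Polynomial.mapRingHom ι)).eval₂ (evalJR R) (Y0 R p) = 0 ∧
      (ΨX.map (Polynomial.mapRingHom ι)).eval₂ (evalJR R) (X0 R p) = 0 := by
  obtain ⟨ΨY, ΨX, hY, hX, hYr, hXr⟩ := exists_monic_Zb p hp
  have key : ∀ (Ψ : Polynomial (Polynomial Zb)) (y : LaurentSeries Zb),
      Ψ.eval₂ (evalJR Zb) y = 0 →
      (Ψ.map (Polynomial.mapRingHom ι)).eval₂ (evalJR R) (coeffMap ι y) = 0 := by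
    intro Ψ y h
    have h1 := congrArg (coeffMap ι) h
    rw [map_zero, Polynomial.hom_eval₂] at h1
    rw [Polynomial.eval₂_map]
    rw [← h1]
    congr 1
    refine RingHom.ext fun P => ?_
    rw [RingHom.comp_apply, RingHom.comp_apply, Polynomial.coe_mapRingHom]
    exact (coeffMap_evalJR ι P).symm
  refine ⟨ΨY, ΨX, hY, hX, ?_, ?_⟩
  · have := key ΨY (Y0 Zb p) hYr
    rwa [coeffMap_gInf] at this
  · have := key ΨX (X0 Zb p) hXr
    rwa [coeffMap_X0] at this

end Fermat.Agent.LSb.Unit
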