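/-
LSb / Unit / Modular  (helper4)

The modular units `X0F = Δ(q)/Δ(q^p)`, `Y0F = p^12 Δ(q^p)/Δ(q)` as elements of `FBar N`, `p ∣ N`:
`X0F * Y0F = p^12`; both lie in EVERY valuation subring of `FBar N` containing the algebraic
integers and `j` (in particular: in all Gauss-type rings `O_i`, and in all places where `j` is
regular, i.e. in `regAway Q̄ j`).
-/
import Fermat.Agent.LSb.Unit.XY
import Fermat.Agent.LSb.Unit.Nodes
import Fermat.Agent.S18lib.Haupt.BarEq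
import Fermat.Agent.S18lib.Gin0.Main

set_option autoImplicit false

noncomputable section

namespace Fermat.Agent.LSb.Unit

open AlgebraicCurve ModularCurve HahnSeries Fermat.Agent.S18lib Fermat.Agent.S28lib
open Fermat.Agent.S28lib.BrickB

local notation "Qb" => AlgebraicClosure ℚ
local notation "Zb" => integralClosure ℤ ℂ

/-- a root of a monic polynomial with coefficients in a valuation subring lies in it -/
theorem mem_of_monic_eval₂ {R F : Type*} [CommRing R] [Field F] (O : ValuationSubring F)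
    (φ : R →+* F) (hφ : ∀ r, φ r ∈ O) (Ψ : Polynomial R) (hΨ : Ψ.Monic) {y : F}
    (hy : Ψ.eval₂ φ y = 0) : y ∈ O := by
  set φ' : R →+* O := φ.codRestrict O.toSubring hφ with hφ'
  apply Gink.mem_of_isIntegral O
  refine ⟨Ψ.map φ', hΨ.map φ', ?_⟩
  rw [Polynomial.eval₂_map]
  have : (algebraMap O F).comp φ' = φ := RingHom.ext fun r => rfl
  rw [this, hy]

section Level

variable (N : ℕ) [NeZero N] (p : ℕ) [Fact p.Prime]

instance neZeroOfFactPrime : NeZero p := ⟨(Fact.out : p.Prime).ne_zero⟩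

theorem natCast_ne_zero_Qb : (p : Qb) ≠ 0 := by
  exact_mod_cast (Fact.out : p.Prime).ne_zero

theorem X0_mul_nuQ : X0 Qb p * nuQ Qb p = 1 := by
  rw [X0, nuQ, DeltaInvQ_eq_inv]
  have h1 : DeltaQ Qb ≠ 0 := DeltaQ_ne_zero Qb
  have h2 : qExpand Qb p (DeltaQ Qb) ≠ 0 := qExpand_ne_zero p h1
  rw [map_inv₀]
  field_simp

theorem nuQ_mem_FBar (hpN : p ∣ N) : nuQ Qb p ∈ modularFunctionFieldBar N := by
  rw [Haupt.modularFunctionFieldBar_eq]
  exact Haupt.nuQ_mem_fullC Qb N (Gink.intToQbar : Zb →+* Qb) p (natCast_ne_zero_Qb p) hpN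

theorem X0_mem_FBar (hpN : p ∣ N) : X0 Qb p ∈ modularFunctionFieldBar N := by
  have h : X0 Qb p = (nuQ Qb p)⁻¹ := eq_inv_of_mul_eq_one_left (X0_mul_nuQ p)
  rw [h]
  exact inv_mem (nuQ_mem_FBar N p hpN)

theorem Y0_mem_FBar (hpN : p ∣ N) : Y0 Qb p ∈ modularFunctionFieldBar N := by
  rw [Y0, gInf_eq_nuQ]
  refine mul_mem ?_ (nuQ_mem_FBar N p hpN)
  have : (HahnSeries.C ((p : Qb) ^ 12) : LaurentSeries Qb) =
      algebraMap Qb (LaurentSeries Qb) ((p : Qb) ^ 12) := (algebraMap_eq_C Qb _).symm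
  rw [this]
  exact IntermediateField.algebraMap_mem _ _

/-- `Δ(q)/Δ(q^p) ∈ FBar N` -/
def X0F (hpN : p ∣ N) : FBar N := ⟨X0 Qb p, X0_mem_FBar N p hpN⟩

/-- `p^12 Δ(q^p)/Δ(q) ∈ FBar N` -/
def Y0F (hpN : p ∣ N) : FBar N := ⟨Y0 Qb p, Y0_mem_FBar N p hpN⟩

@[simp] theorem coe_X0F (hpN : p ∣ N) :
    ((X0F N p hpN : FBar N) : LaurentSeries Qb) = X0 Qb p := rfl

@[simp] theorem coe_Y0F (hpN : p ∣ N) :
    ((Y0F N p hpN : FBar N) : LaurentSeries Qb) = Y0 Qb p := rfl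

theorem X0F_mul_Y0F (hpN : p ∣ N) :
    X0F N p hpN * Y0F N p hpN = algebraMap Qb (FBar N) ((p : Qb) ^ 12) := by
  apply Subtype.ext
  show X0 Qb p * Y0 Qb p = algebraMap Qb (LaurentSeries Qb) ((p : Qb) ^ 12)
  rw [X0_mul_Y0, algebraMap_eq_C]

theorem X0F_ne_zero (hpN : p ∣ N) : X0F N p hpN ≠ 0 := by
  intro h
  have := X0F_mul_Y0F N p hpN
  rw [h, zero_mul] at this
  exact (map_ne_zero _).2 (pow_ne_zero 12 (natCast_ne_zero_Qb p)) this.symm

theorem Y0F_ne_zero (hpN : p ∣ N) : Y0F N p hpN ≠ 0 := by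
  intro h
  have := X0F_mul_Y0F N p hpN
  rw [h, mul_zero] at this
  exact (map_ne_zero _).2 (pow_ne_zero 12 (natCast_ne_zero_Qb p)) this.symm

/-- the evaluation `P ↦ P(j)`, `ℤ̄[T] → FBar N` -/
def evalZbF : Polynomial Zb →+* FBar N :=
  (Polynomial.aeval (Gin0.jF N) : Polynomial Qb →ₐ[Qb] FBar N).toRingHom.comp
    (Polynomial.mapRingHom (Gink.intToQbar : Zb →+* Qb))

theorem coe_evalZbF (P : Polynomial Zb) :
    ((evalZbF N P : FBar N) : LaurentSeries Qb) =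
      evalJR Qb (P.map (Gink.intToQbar : Zb →+* Qb)) := by
  show (((Polynomial.aeval (Gin0.jF N)) (P.map (Gink.intToQbar : Zb →+* Qb)) : FBar N) :
    LaurentSeries Qb) = _
  have h2 := Polynomial.aeval_algHom_apply (modularFunctionFieldBar N).val (Gin0.jF N)
    (P.map (Gink.intToQbar : Zb →+* Qb))
  rw [IntermediateField.coe_val] at h2
  rw [← h2, evalJR_apply, Gin0.coe_jF]

theorem coe_eval₂_evalZbF (Ψ : Polynomial (Polynomial Zb)) (y : FBar N) :
    ((Ψ.eval₂ (evalZbF N) y : FBar N) : LaurentSeries Qb) =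
      (Ψ.map (Polynomial.mapRingHom (Gink.intToQbar : Zb →+* Qb))).eval₂ (evalJR Qb)
        (y : LaurentSeries Qb) := by
  rw [Polynomial.eval₂_map, Polynomial.eval₂_eq_sum_range, Polynomial.eval₂_eq_sum_range]
  rw [AddSubmonoidClass.coe_finsetSum]
  refine Finset.sum_congr rfl fun i _ => ?_
  rw [MulMemClass.coe_mul, SubmonoidClass.coe_pow, coe_evalZbF]
  rfl

/-- both units lie in every valuation subring containing the algebraic integers and `j` -/
theorem X0F_Y0F_mem (hpN : p ∣ N) (O : ValuationSubring (FBar N))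
    (hc : ∀ z : Zb, algebraMap Qb (FBar N) ((Gink.intToQbar : Zb →+* Qb) z) ∈ O)
    (hj : Gin0.jF N ∈ O) : X0F N p hpN ∈ O ∧ Y0F N p hpN ∈ O := by
  obtain ⟨ΨY, ΨX, hY, hX, hYr, hXr⟩ :=
    exists_monic_of_ringHom p (Fact.out : p.Prime) (Gink.intToQbar : Zb →+* Qb)
  have hφ : ∀ P : Polynomial Zb, evalZbF N P ∈ O := by
    intro P
    show (Polynomial.aeval (Gin0.jF N)) (P.map (Gink.intToQbar : Zb →+* Qb)) ∈ O
    rw [Polynomial.aeval_def, Polynomial.eval₂_eq_sum_range]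
    refine O.toSubring.sum_mem fun i _ => ?_
    refine O.mul_mem _ _ ?_ (O.pow_mem hj i)
    rw [Polynomial.coeff_map]
    exact hc _
  constructor
  · refine mem_of_monic_eval₂ O (evalZbF N) hφ ΨX hX ?_
    apply Subtype.ext
    rw [coe_eval₂_evalZbF]
    exact hXr
  · refine mem_of_monic_eval₂ O (evalZbF N) hφ ΨY hY ?_
    apply Subtype.ext
    rw [coe_eval₂_evalZbF]
    exact hYr

/-- both units and their inverses are regular outside the poles of `j` -/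
theorem X0F_mem_regAway (hpN : p ∣ N) : X0F N p hpN ∈ regAway Qb (Gin0.jF N) := fun Q hQ =>
  (X0F_Y0F_mem N p hpN Q.toValuationSubring (fun _ => Q.algebraMap_mem' _) hQ).1

theorem Y0F_mem_regAway (hpN : p ∣ N) : Y0F N p hpN ∈ regAway Qb (Gin0.jF N) := fun Q hQ =>
  (X0F_Y0F_mem N p hpN Q.toValuationSubring (fun _ => Q.algebraMap_mem' _) hQ).2

theorem X0F_inv_eq (hpN : p ∣ N) :
    (X0F N p hpN)⁻¹ = algebraMap Qb (FBar N) (((p : Qb) ^ 12)⁻¹) * Y0F N p hpN := by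
  have h := X0F_mul_Y0F N p hpN
  have hc : algebraMap Qb (FBar N) ((p : Qb) ^ 12) ≠ 0 :=
    (map_ne_zero _).2 (pow_ne_zero 12 (natCast_ne_zero_Qb p))
  rw [map_inv₀, eq_comm, inv_mul_eq_iff_eq_mul₀ hc, ← h, mul_comm (X0F N p hpN),
    mul_assoc, mul_inv_cancel₀ (X0F_ne_zero N p hpN), mul_one]

theorem X0F_inv_mem_regAway (hpN : p ∣ N) : (X0F N p hpN)⁻¹ ∈ regAway Qb (Gin0.jF N) := by
  rw [X0F_inv_eq]
  exact (regAway Qb (Gin0.jF N)).mul_mem (algebraMap_mem_regAway _ _) (Y0F_mem_regAway N p hpN)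

end Level

end Fermat.Agent.LSb.Unit
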