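/-
LSb / Unit / Transport  (helper4)

Transport of a Gauss datum along an `L`-algebra automorphism `e` of `F`:
`(D.transport e).O = e⁻¹ (D.O)`, `(D.transport e).redF x = D.redF (e x)`.
In the application `e = w_q` (Atkin–Lehner) and `D = D1`: the second component of the special fibre.
-/
import Fermat.Agent.S18lib.Weak.Lemmas

set_option autoImplicit false

noncomputable section

namespace Fermat.Agent.LSb.Unit

open Fermat.Agent.S18lib

variable {L : Type*} [Field L] {A : ValuationSubring L}
variable {F : Type*} [Field F] [Algebra L F]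
variable {Fk : Type*} [Field Fk] [Algebra (IsLocalRing.ResidueField A) Fk]

/-- the restriction of `e` to `e⁻¹ O → O` -/
def comapHom (O : ValuationSubring F) (e : F ≃ₐ[L] F) :
    (O.comap (e : F →+* F)) →+* O where
  toFun x := ⟨e x, x.2⟩
  map_one' := Subtype.ext (map_one e)
  map_mul' x y := Subtype.ext (map_mul e (x : F) (y : F))
  map_zero' := Subtype.ext (map_zero e)
  map_add' x y := Subtype.ext (map_add e (x : F) (y : F))

@[simp] theorem coe_comapHom (O : ValuationSubring F) (e : F ≃ₐ[L] F)
    (x : O.comap (e : F →+* F)) : ((comapHom O e x : O) : F) = e x := rfl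

theorem comapHom_surjective (O : ValuationSubring F) (e : F ≃ₐ[L] F) :
    Function.Surjective (comapHom O e) := by
  intro y
  refine ⟨⟨e.symm y, ?_⟩, Subtype.ext ?_⟩
  · show e (e.symm y) ∈ O
    rw [AlgEquiv.apply_symm_apply]; exact y.2
  · show e (e.symm y) = y
    exact AlgEquiv.apply_symm_apply e y

/-- transport of a Gauss datum along an automorphism -/
def transport (D : GaussDatum A F Fk) (e : F ≃ₐ[L] F) : GaussDatum A F Fk where
  O := D.O.comap (e : F →+* F)
  algebraMap_mem_iff c := by
    rw [ValuationSubring.mem_comap]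
    show e (algebraMap L F c) ∈ D.O ↔ c ∈ A
    rw [AlgEquiv.commutes]
    exact D.algebraMap_mem_iff c
  red := D.red.comp (comapHom D.O e)
  red_surjective := D.red_surjective.comp (comapHom_surjective D.O e)
  red_algebraMap a h := by
    have h' : algebraMap L F (a : L) ∈ D.O := (D.algebraMap_mem_iff _).2 a.2
    have : comapHom D.O e ⟨algebraMap L F (a : L), h⟩ = ⟨algebraMap L F (a : L), h'⟩ :=
      Subtype.ext (by rw [coe_comapHom]; exact AlgEquiv.commutes e _)
    rw [RingHom.comp_apply, this]
    exact D.red_algebraMap a h'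
  exists_const_mul_isUnit f hf := by
    have hef : e f ≠ 0 := (map_ne_zero e).2 hf
    obtain ⟨c, hc, u, hu⟩ := D.exists_const_mul_isUnit (e f) hef
    refine ⟨c, hc, ?_⟩
    -- the unit `e⁻¹ u` of `e⁻¹ O`
    have hmem : ∀ v : D.Oˣ, e.symm ((v : D.O) : F) ∈ D.O.comap (e : F →+* F) := by
      intro v
      show e (e.symm ((v : D.O) : F)) ∈ D.O
      rw [AlgEquiv.apply_symm_apply]; exact (v : D.O).2
    let u' : (D.O.comap (e : F →+* F))ˣ :=
      { val := ⟨e.symm ((u : D.O) : F), hmem u⟩
        inv := ⟨e.symm (((u⁻¹ : D.Oˣ) : D.O) : F), hmem u⁻¹⟩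
        val_inv := by
          apply Subtype.ext
          show e.symm ((u : D.O) : F) * e.symm (((u⁻¹ : D.Oˣ) : D.O) : F) = 1
          rw [← map_mul, ← D.O.coe_mul, Units.mul_inv]
          exact map_one e.symm
        inv_val := by
          apply Subtype.ext
          show e.symm (((u⁻¹ : D.Oˣ) : D.O) : F) * e.symm ((u : D.O) : F) = 1
          rw [← map_mul, ← D.O.coe_mul, Units.inv_mul]
          exact map_one e.symm }
    refine ⟨u', ?_⟩
    show algebraMap L F c * f = e.symm ((u : D.O) : F)
    rw [← hu, map_mul, AlgEquiv.commutes, AlgEquiv.symm_apply_apply]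

theorem mem_transport (D : GaussDatum A F Fk) (e : F ≃ₐ[L] F) (x : F) :
    x ∈ (transport D e).O ↔ e x ∈ D.O := Iff.rfl

theorem transport_redF (D : GaussDatum A F Fk) (e : F ≃ₐ[L] F) (x : F) :
    (transport D e).redF x = D.redF (e x) := by
  by_cases hx : x ∈ (transport D e).O
  · have hx' : e x ∈ D.O := hx
    rw [GaussDatum.redF_of_mem _ hx, GaussDatum.redF_of_mem _ hx']
    rfl
  · have hx' : e x ∉ D.O := hx
    rw [GaussDatum.redF_of_not_mem _ hx, GaussDatum.redF_of_not_mem _ hx']

end Fermat.Agent.LSb.Unit
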