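/-
LSb / Unit / ModRed  (helper4)

The modular ingredients of the nodal instance at level `M q`, `q ∤ M`, given the two Gauss data
`D1 D2` on `FBar (M q)` (hypotheses `Old.IsGaussOne D1`, `Old.IsGaussTwo D1 D2 wq`, brick B1):

* `redF_jF₁ : D1.redF j = j̄`, `redF_jF₂ : D2.redF j = Vq j̄` (`= j̄ ^ q`);
* `H₂ := D1.redF (Δ(t)/Δ(t^q))`, `coe_H₂ : (H₂ : k((t))) = X0 k q`, `coe_H₂_mul`;
* the unit `Yw := wq (Δ(t)/Δ(t^q))`: `Yw, Yw⁻¹` regular away from the poles of `j`,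
  `D2.redF Yw = H₂`;
* `wq` preserves the functions regular away from the poles of `j`.
-/
import Fermat.Agent.LSb.Unit.Modular
import Fermat.Agent.LSb.Unit.Transport
import Fermat.Agent.LSb.Old.Lift
import Fermat.Agent.LSb.Val.Wq
import Fermat.Agent.S37lib.ConjNorm.KroneckerPlace

set_option autoImplicit false
set_option linter.unusedSectionVars false
set_option linter.unusedVariables false

noncomputable section

namespace Fermat.Agent.LSb.Unit

open AlgebraicCurve ModularCurve HahnSeries Fermat.Agent.S18lib Fermat.Agent.S28lib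
open Fermat.Agent.S28lib.BrickB Fermat.Agent.ProgramR

local notation "Qb" => AlgebraicClosure ℚ
local notation "Zb" => integralClosure ℤ ℂ

variable {M q : ℕ} [NeZero M] [NeZero q] [hq : Fact q.Prime]
variable {A : ValuationSubring (AlgebraicClosure ℚ)}

local notation "kA" => IsLocalRing.ResidueField A

/-- the Atkin–Lehner involution as a ring homomorphism -/
abbrev wqR (M q : ℕ) [NeZero M] [NeZero q] [hq : Fact q.Prime] (hqM : ¬ q ∣ M) :
    FBar (M * q) →+* FBar (M * q) :=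
  ((Val.wq M q hq.out hqM : FBar (M * q) ≃ₐ[Qb] FBar (M * q)) : FBar (M * q) →+* FBar (M * q))

theorem dvd_level (M q : ℕ) : q ∣ M * q := Dvd.intro_left M rfl

section WqReg

variable (hqM : ¬ q ∣ M)

/-- `wq j = j(t ^ q)` -/
theorem wq_jF : Val.wq M q hq.out hqM (Gin0.jF (M * q)) = S37lib.ConjNorm.jBeta M q := by
  rw [← Old.alpha_jF, Val.wq_alpha]
  rfl

/-- `j(t ^ q)` is regular wherever `j` is -/
theorem jBeta_mem_regAway : S37lib.ConjNorm.jBeta M q ∈ regAway Qb (Gin0.jF (M * q)) := by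
  intro Q hQ
  rw [S37lib.ConjNorm.jBeta_mem_iff]
  have : S37lib.ConjNorm.jAlpha M q = Gin0.jF (M * q) := S37lib.ConjNorm.jAlpha_eq M q
  rw [this]
  exact hQ

/-- `wq` preserves the ring of functions regular away from the poles of `j` -/
theorem wq_mem_regAway {f : FBar (M * q)} (hf : f ∈ regAway Qb (Gin0.jF (M * q))) :
    Val.wq M q hq.out hqM f ∈ regAway Qb (Gin0.jF (M * q)) := by
  have h1 : Old.IsIntegralOver Qb (Gin0.jF (M * q)) f :=
    Old.isIntegralOver_of_forall_place (Gin0.jF (M * q)) (Gin0.transcendental_jF (M * q))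
      (fun v hv => FF.ord_nonneg_of_mem v (hf v (FF.mem_of_ord_nonneg v hv)))
  have h2 := Old.IsIntegralOver.map (Val.wq M q hq.out hqM : FBar (M * q) →ₐ[Qb] FBar (M * q)) h1
  intro Q hQ
  refine Old.mem_place_of_isIntegralOver Q ?_ h2
  show Val.wq M q hq.out hqM (Gin0.jF (M * q)) ∈ Q.toValuationSubring
  rw [wq_jF]
  exact jBeta_mem_regAway Q hQ

end WqReg

/-! ### `Δ̄(t)/Δ̄(t^p) = Δ̄^(1-p)` in characteristic `p` -/

section CharP

variable (k : Type*) [Field k] (p : ℕ) [hp : Fact p.Prime] [CharP k p]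

theorem qExpand_DeltaInvQ_char : qExpand k p (DeltaInvQ k) = DeltaInvQ k ^ p := by
  rw [S37lib.ConjNorm.pow_char_eq_qExpand p, coeffMap_DeltaInvQ]

/-- `(Δ̄(t)/Δ̄(t^p)) · Δ̄^(p-1) = 1` in characteristic `p` -/
theorem X0_mul_pow_char : X0 k p * DeltaQ k ^ (p - 1) = 1 := by
  have hp1 : p - 1 + 1 = p := Nat.sub_add_cancel hp.out.one_le
  have h1 : DeltaQ k * DeltaInvQ k = 1 := DeltaQ_mul_DeltaInvQ k
  calc X0 k p * DeltaQ k ^ (p - 1)
      = DeltaQ k ^ (p - 1 + 1) * DeltaInvQ k ^ p := by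
        rw [X0, qExpand_DeltaInvQ_char, pow_succ]; ring
    _ = (DeltaQ k * DeltaInvQ k) ^ p := by rw [hp1, mul_pow]
    _ = 1 := by rw [h1, one_pow]

end CharP

/-! ### constants -/

theorem intToQbar_mem (A : ValuationSubring Qb) (z : Zb) :
    (Gink.intToQbar : Zb →+* Qb) z ∈ A :=
  (Gink.intToA A z).2

section Red

variable (hqM : ¬ q ∣ M) (hA : A.LiesOverPrime q)
variable {D1 D2 : GaussDatum A (FBar (M * q)) (FRes A M)}
variable (h1 : Old.IsGaussOne D1) (h2 : Old.IsGaussTwo D1 D2 (wqR M q hqM))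

include hqM hA h1 in
theorem redF_jF₁ : D1.redF (Gin0.jF (M * q)) = Gink.jK A M := by
  rw [← Old.alpha_jF, Old.redF_alpha hqM hA h1, V.gaussDatum_redF_jF]

include hqM h1 h2 in
theorem redF_jF₂ : D2.redF (Gin0.jF (M * q)) = Old.Vq M q A hA (Gink.jK A M) := by
  rw [← Old.alpha_jF, Old.redF_alpha₂ hqM hA h1 h2, V.gaussDatum_redF_jF]

theorem jK_ne_zero : Gink.jK A M ≠ 0 := by
  intro h
  have := congrArg (fun x : FRes A M => (x : LaurentSeries kA)) h
  simp only [Gink.coe_jK] at this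
  exact S28lib.jqModC_ne_zero kA this

include hqM hA h1 in
theorem jF_mem₁ : Gin0.jF (M * q) ∈ D1.O :=
  D1.mem_of_redF_ne_zero (by rw [redF_jF₁ hqM hA h1]; exact jK_ne_zero)

include hqM hA h1 h2 in
theorem jF_mem₂ : Gin0.jF (M * q) ∈ D2.O :=
  D2.mem_of_redF_ne_zero (by
    rw [redF_jF₂ hqM hA h1 h2]
    exact (map_ne_zero _).2 jK_ne_zero)

include hqM hA h1 in
/-- `Δ(t)/Δ(t^q)` lies in both Gauss rings -/
theorem X0F_mem₁ : X0F (M * q) q (dvd_level M q) ∈ D1.O :=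
  (X0F_Y0F_mem (M * q) q (dvd_level M q) D1.O
    (fun z => (D1.algebraMap_mem_iff _).2 (intToQbar_mem A z)) (jF_mem₁ hqM hA h1)).1

include hqM hA h1 h2 in
theorem X0F_mem₂ : X0F (M * q) q (dvd_level M q) ∈ D2.O :=
  (X0F_Y0F_mem (M * q) q (dvd_level M q) D2.O
    (fun z => (D2.algebraMap_mem_iff _).2 (intToQbar_mem A z)) (jF_mem₂ hqM hA h1 h2)).1

/-! ### the function `H₂ = red₁ (Δ(t)/Δ(t^q))` -/

/-- `H₂ = red₁ (Δ(t)/Δ(t^q)) ∈ FRes A M`; its zeros away from the poles of `j̄` are the nodes -/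
def H₂ (D1 : GaussDatum A (FBar (M * q)) (FRes A M)) : FRes A M :=
  D1.redF (X0F (M * q) q (dvd_level M q))

include h1 in
/-- as a `t`-expansion, `H₂ = Δ̄(t)/Δ̄(t^q)` -/
theorem coe_H₂ : ((H₂ D1 : FRes A M) : LaurentSeries kA) = X0 kA q := by
  have hL : V.toL A (X0 A q) = X0 Qb q := coeffMap_X0 (R := (A : Type)) q A.subtype
  have hy : V.toL A (X0 A q) ∈ modularFunctionFieldBar (M * q) := by
    rw [hL]; exact X0_mem_FBar (M * q) q (dvd_level M q)
  have he : X0F (M * q) q (dvd_level M q) = (⟨V.toL A (X0 A q), hy⟩ : FBar (M * q)) :=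
    Subtype.ext hL.symm
  rw [H₂, he, h1.red (X0 A q) hy]
  exact coeffMap_X0 (R := (A : Type)) q (IsLocalRing.residue A)

include hA h1 in
/-- `H₂ · Δ̄^(q-1) = 1` as `t`-expansions: `H₂ = Δ̄^(1-q)` -/
theorem coe_H₂_mul : ((H₂ D1 : FRes A M) : LaurentSeries kA) * DeltaQ kA ^ (q - 1) = 1 := by
  have := Old.charP_kRes hA
  rw [coe_H₂ h1]
  exact X0_mul_pow_char kA q

include h1 in
theorem H₂_ne_zero : H₂ D1 ≠ 0 := by
  intro h
  have h0 := congrArg (fun x : FRes A M => (x : LaurentSeries kA)) h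
  simp only [coe_H₂ h1] at h0
  -- `X0 = Δ̄ · (Δ̄⁻¹)(t^q)` is a product of nonzero series
  have hne : X0 kA q ≠ 0 := by
    rw [X0]
    exact mul_ne_zero (DeltaQ_ne_zero kA) (qExpand_ne_zero q (DeltaInvQ_ne_zero (k := kA)))
  exact hne h0

include hqM h2 in
/-- `D2.redF (wq X) = D1.redF X` -/
theorem redF₂_wq (x : FBar (M * q)) :
    D2.redF (Val.wq M q hq.out hqM x) = D1.redF x := by
  rw [h2.redF]
  show D1.redF (Val.wq M q hq.out hqM (Val.wq M q hq.out hqM x)) = _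
  rw [Val.wq_wq]

/-- the unit `Yw = wq (Δ(t)/Δ(t^q))` -/
def Yw (M q : ℕ) [NeZero M] [NeZero q] [hq : Fact q.Prime] (hqM : ¬ q ∣ M) : FBar (M * q) :=
  Val.wq M q hq.out hqM (X0F (M * q) q (dvd_level M q))

theorem Yw_mem_regAway : Yw M q hqM ∈ regAway Qb (Gin0.jF (M * q)) :=
  wq_mem_regAway hqM (X0F_mem_regAway (M * q) q (dvd_level M q))

theorem Yw_inv_mem_regAway : (Yw M q hqM)⁻¹ ∈ regAway Qb (Gin0.jF (M * q)) := by
  rw [Yw, ← map_inv₀]
  exact wq_mem_regAway hqM (X0F_inv_mem_regAway (M * q) q (dvd_level M q))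

include h2 in
theorem redF₂_Yw : D2.redF (Yw M q hqM) = H₂ D1 := redF₂_wq hqM h2 _

end Red

/-! ### the second Gauss datum as the Atkin–Lehner transport of the first -/

/-- `D2 := w_q^* D1` -/
def modD2 (hqM : ¬ q ∣ M) (D1 : GaussDatum A (FBar (M * q)) (FRes A M)) :
    GaussDatum A (FBar (M * q)) (FRes A M) :=
  transport D1 (Val.wq M q hq.out hqM)

theorem isGaussTwo_modD2 (hqM : ¬ q ∣ M) (D1 : GaussDatum A (FBar (M * q)) (FRes A M)) :
    Old.IsGaussTwo D1 (modD2 hqM D1) (wqR M q hqM) where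
  mem_iff x := mem_transport D1 _ x
  redF x := transport_redF D1 _ x
  wq_alpha f := Val.wq_alpha M q hq.out hqM f

end Fermat.Agent.LSb.Unit
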