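/-
LSb / Unit / NodeSet  (helper4)

The node set of a function field `Fk / K` with respect to a coordinate `J` and a function `H`:
the places where `J` is regular and `H` vanishes.  Finite when `H ≠ 0`; enumeration by `Fin s`;
a constant avoiding the finitely many values of a function at a finite set of places.
-/
import Fermat.Agent.LSb.Core.Value
import Fermat.Agent.LSb.Unit.Nodes
set_option linter.style.haveILetI false

set_option autoImplicit false

noncomputable section

namespace Fermat.Agent.LSb.Unit

open AlgebraicCurve Fermat.Agent.S18lib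

variable {K Fk : Type*} [Field K] [Field Fk] [Algebra K Fk]

/-- the places where `J` is regular and `H` vanishes -/
def nodeSet (K : Type*) {Fk : Type*} [Field K] [Field Fk] [Algebra K Fk] (J H : Fk) :
    Set (Place K Fk) :=
  {x' | J ∈ x'.toValuationSubring ∧ x'.adicValuation H < 1}

theorem mem_nodeSet {J H : Fk} {x' : Place K Fk} :
    x' ∈ nodeSet K J H ↔ J ∈ x'.toValuationSubring ∧ x'.adicValuation H < 1 := Iff.rfl

theorem nodeSet_finite [HasPrincipalDivisors K Fk] (J : Fk) {H : Fk} (hH : H ≠ 0) :
    (nodeSet K J H).Finite := by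
  refine Set.Finite.subset (divOf (K := K) H).support.finite_toSet ?_
  intro x' hx'
  have h1 := (LSb.adicValuation_lt_one_iff (Q := x')).1 hx'.2
  have h2 : 0 < x'.ord H := h1.resolve_left hH
  rw [Finset.mem_coe, Finsupp.mem_support_iff, divOf_apply']
  omega

/-- the number of nodes -/
def numNodes (K : Type*) {Fk : Type*} [Field K] [Field Fk] [Algebra K Fk] (J H : Fk) : ℕ :=
  Nat.card (nodeSet K J H)

theorem finite_of_fin {J H : Fk} (c : Fin (numNodes K J H)) : Finite (nodeSet K J H) := by
  apply Nat.finite_of_card_ne_zero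
  have := c.2
  unfold numNodes at this
  omega

/-- an enumeration of the nodes (the empty function if there are infinitely many) -/
def nodeEnum (J H : Fk) : Fin (numNodes K J H) → Place K Fk := fun c =>
  haveI : Finite (nodeSet K J H) := finite_of_fin c
  ((Finite.equivFin (nodeSet K J H)).symm c : nodeSet K J H)

theorem nodeEnum_mem (J H : Fk) (c : Fin (numNodes K J H)) :
    nodeEnum J H c ∈ nodeSet K J H :=
  haveI : Finite (nodeSet K J H) := finite_of_fin c
  ((Finite.equivFin (nodeSet K J H)).symm c).2

theorem nodeEnum_injective (J H : Fk) : Function.Injective (nodeEnum (K := K) J H) := by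
  intro c d hcd
  haveI : Finite (nodeSet K J H) := finite_of_fin c
  exact (Finite.equivFin (nodeSet K J H)).symm.injective (Subtype.ext hcd)

theorem nodeEnum_surjective [HasPrincipalDivisors K Fk] (J : Fk) {H : Fk} (hH : H ≠ 0)
    {x' : Place K Fk} (hx' : x' ∈ nodeSet K J H) : ∃ c, nodeEnum J H c = x' := by
  haveI : Finite (nodeSet K J H) := (nodeSet_finite J hH).to_subtype
  refine ⟨Finite.equivFin (nodeSet K J H) ⟨x', hx'⟩, ?_⟩
  show (((Finite.equivFin (nodeSet K J H)).symm (Finite.equivFin (nodeSet K J H) ⟨x', hx'⟩) :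
    nodeSet K J H) : Place K Fk) = x'
  rw [Equiv.symm_apply_apply]

theorem numNodes_pos_iff [HasPrincipalDivisors K Fk] (J : Fk) {H : Fk} (hH : H ≠ 0) :
    0 < numNodes K J H ↔ (nodeSet K J H).Nonempty := by
  haveI : Finite (nodeSet K J H) := (nodeSet_finite J hH).to_subtype
  rw [numNodes, Nat.card_pos_iff, Set.nonempty_coe_sort]
  exact ⟨fun h => h.1, fun h => ⟨h, inferInstance⟩⟩

/-- a constant which is not a value of `z` at any place of a finite set -/
theorem exists_not_hasValueAt [Infinite K] {S : Set (Place K Fk)} (hS : S.Finite) (z : Fk) :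
    ∃ c : K, ∀ x' ∈ S, ¬ HasValueAt x' z c := by
  classical
  -- the set of values is finite
  have hbad : (⋃ x' ∈ S, {c : K | HasValueAt x' z c}).Finite := by
    refine Set.Finite.biUnion hS fun x' _ => Set.Subsingleton.finite ?_
    intro c hc d hd
    exact HasValueAt.unique hc hd
  obtain ⟨c, hc⟩ := hbad.infinite_compl.nonempty
  refine ⟨c, fun x' hx' h => hc ?_⟩
  exact Set.mem_biUnion hx' h

end Fermat.Agent.LSb.Unit
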