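/-
LSb / Unit / Instance  (helper4)

The modular nodal datum at level `M q`, `q ∤ M`, over a valuation ring `A` of `Q̄` above `q`:

* `modDatum hA D1 D2 = chartDatum D1 D2 j c₀ s x₁ x₂` with
  - the node set `modNodes D1` = places of `FRes A M` where `j̄` is regular and
    `H₂ = red₁ (Δ(t)/Δ(t^q))` vanishes, `s = modS D1` their number, `x₂ = modX₂ D1` an enumeration,
  - `x₁ c = modX₁ hA D1 c` = the Frobenius image of `x₂ c` (valuation ring `Vq⁻¹ O_{x₂ c}`),
  - `c₀ = c0 hA D1 : A` a lift of a constant `c0bar` which is not a value of `Vq j̄ = j̄^q` at a node;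
* the fields of `NodalCtx` concerning the nodes: injectivity, `x₁_not_mem`, `x₂_not_mem`, `glue`.
-/
import Fermat.Agent.LSb.Unit.ModRed
import Fermat.Agent.LSb.Unit.NodeSet
import Fermat.Agent.LSb.Unit.Datum
import Fermat.Agent.LSb.Frame.Integral
import Fermat.Agent.S18lib.Asm.RankOne

set_option autoImplicit false
set_option linter.unusedSectionVars false
set_option linter.unusedVariables false

noncomputable section

namespace Fermat.Agent.LSb.Unit

open AlgebraicCurve ModularCurve HahnSeries Fermat.Agent.S18lib Fermat.Agent.ProgramR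

local notation "Qb" => AlgebraicClosure ℚ

variable {M q : ℕ} [NeZero M] [NeZero q] [hq : Fact q.Prime]
variable {A : ValuationSubring (AlgebraicClosure ℚ)}

local notation "kA" => IsLocalRing.ResidueField A

/-! ### supports of pole and zero divisors -/

section Supp

variable {K F : Type*} [Field K] [Field F] [Algebra K F] [HasPrincipalDivisors K F]

theorem not_mem_support_polesOf {x : Place K F} {f : F} (hf : f ∈ x.toValuationSubring) :
    x ∉ (polesOf (K := K) f).support := by
  rw [Finsupp.mem_support_iff, not_not, polesOf_apply]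
  have := (FF.mem_iff_ord_nonneg x f).1 hf
  exact max_eq_right (by omega)

theorem not_mem_support_zerosOf {x : Place K F} {g : F} (hg : ¬ x.adicValuation g < 1) :
    x ∉ (zerosOf (K := K) g).support := by
  rw [Finsupp.mem_support_iff, not_not, zerosOf_apply]
  rw [LSb.adicValuation_lt_one_iff, not_or, not_lt] at hg
  exact max_eq_right hg.2

end Supp

/-! ### the Frobenius substitution as a ring homomorphism -/

/-- `t ↦ t ^ q` on `FRes A M` as a ring homomorphism -/
abbrev VqR (hA : A.LiesOverPrime q) : FRes A M →+* FRes A M :=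
  (Old.Vq M q A hA : FRes A M →+* FRes A M)

theorem VqR_algebraMap (hA : A.LiesOverPrime q) (c : kA) :
    VqR (M := M) hA (algebraMap kA (FRes A M) c) = algebraMap kA (FRes A M) c :=
  AlgHom.commutes (Old.Vq M q A hA) c

theorem VqR_pow (hA : A.LiesOverPrime q) (z : FRes A M) : ∃ w : FRes A M, VqR hA w = z ^ q :=
  Old.exists_Vq_eq_pow hA z

/-- `Vq j̄ = j̄ ^ q` -/
theorem VqR_jK (hA : A.LiesOverPrime q) : VqR hA (Gink.jK A M) = Gink.jK A M ^ q := by
  have := Old.charP_kRes hA
  apply Subtype.ext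
  show qExpand kA q ((Gink.jK A M : FRes A M) : LaurentSeries kA) = _
  rw [SubmonoidClass.coe_pow, Gink.coe_jK, S37lib.ConjNorm.pow_char_eq_qExpand q, coeffMap_jqModC]

/-! ### the data -/

/-- the nodes (on the second component): `j̄` regular, `H₂ = 0` -/
def modNodes (D1 : GaussDatum A (FBar (M * q)) (FRes A M)) : Set (Place kA (FRes A M)) :=
  nodeSet kA (Gink.jK A M) (H₂ D1)

/-- the number of nodes -/
def modS (D1 : GaussDatum A (FBar (M * q)) (FRes A M)) : ℕ :=
  numNodes kA (Gink.jK A M) (H₂ D1)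

/-- the nodes on the second component -/
def modX₂ (D1 : GaussDatum A (FBar (M * q)) (FRes A M)) :
    Fin (modS D1) → Place kA (FRes A M) :=
  nodeEnum (Gink.jK A M) (H₂ D1)

/-- the nodes on the first component: Frobenius images -/
def modX₁ (hA : A.LiesOverPrime q) (D1 : GaussDatum A (FBar (M * q)) (FRes A M)) :
    Fin (modS D1) → Place kA (FRes A M) := fun c =>
  frobPlace (VqR hA) (VqR_algebraMap hA) (modX₂ D1 c)
    (comap_ne_top_of_pow (VqR hA) hq.out.pos (VqR_pow hA) _)

/-- a constant which is not a value of `j̄ ^ q` at a node -/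
def c0bar (hA : A.LiesOverPrime q) (D1 : GaussDatum A (FBar (M * q)) (FRes A M)) : kA :=
  Classical.epsilon fun c : kA =>
    ∀ x' ∈ modNodes D1, ¬ HasValueAt x' (VqR hA (Gink.jK A M)) c

/-- every residue class has a representative fixed by the inertia group (Teichmüller lifts;
brick `Kum/Teich` of helper2) -/
def HasFixedLifts (A : ValuationSubring (AlgebraicClosure ℚ)) : Prop :=
  ∀ cbar : IsLocalRing.ResidueField A, ∃ a : A, IsLocalRing.residue A a = cbar ∧
    ∀ σ ∈ A.inertiaSubgroupIn ℚ, σ (a : AlgebraicClosure ℚ) = (a : AlgebraicClosure ℚ)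

/-- an inertia-invariant lift of `c0bar` -/
def c0 (hA : A.LiesOverPrime q) (D1 : GaussDatum A (FBar (M * q)) (FRes A M)) : A :=
  Classical.epsilon fun a : A => IsLocalRing.residue A a = c0bar hA D1 ∧
    ∀ σ ∈ A.inertiaSubgroupIn ℚ, σ (a : Qb) = (a : Qb)

theorem c0_spec (hT : HasFixedLifts A) (hA : A.LiesOverPrime q)
    (D1 : GaussDatum A (FBar (M * q)) (FRes A M)) :
    IsLocalRing.residue A (c0 hA D1) = c0bar hA D1 ∧
      ∀ σ ∈ A.inertiaSubgroupIn ℚ, σ ((c0 hA D1 : A) : Qb) = ((c0 hA D1 : A) : Qb) :=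
  Classical.epsilon_spec (hT (c0bar hA D1))

theorem residue_c0 (hT : HasFixedLifts A) (hA : A.LiesOverPrime q)
    (D1 : GaussDatum A (FBar (M * q)) (FRes A M)) :
    IsLocalRing.residue A (c0 hA D1) = c0bar hA D1 := (c0_spec hT hA D1).1

section WithDivisors

variable [HasPrincipalDivisors (AlgebraicClosure ℚ) (FBar (M * q))]
variable [HasPrincipalDivisors (IsLocalRing.ResidueField A) (FRes A M)]

/-- **the modular nodal datum** -/
def modDatum (hA : A.LiesOverPrime q) (D1 D2 : GaussDatum A (FBar (M * q)) (FRes A M)) :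
    NodalDatum A (FBar (M * q)) (FRes A M) (FRes A M) :=
  chartDatum D1 D2 (Gin0.jF (M * q)) (c0 hA D1) (modS D1) (modX₁ hA D1) (modX₂ D1)

variable (hqM : ¬ q ∣ M) (hA : A.LiesOverPrime q)
variable {D1 D2 : GaussDatum A (FBar (M * q)) (FRes A M)}
variable (h1 : Old.IsGaussOne D1) (h2 : Old.IsGaussTwo D1 D2 (wqR M q hqM))
variable (hT : HasFixedLifts A)

include h1 in
theorem modNodes_finite : (modNodes D1).Finite := nodeSet_finite _ (H₂_ne_zero h1)

include h1 in
theorem c0bar_spec : ∀ x' ∈ modNodes D1, ¬ HasValueAt x' (VqR hA (Gink.jK A M)) (c0bar hA D1) := by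
  have : IsAlgClosed kA := Gink.isAlgClosed_residueField A
  exact Classical.epsilon_spec (exists_not_hasValueAt (modNodes_finite h1) _)

theorem modX₂_mem (c : Fin (modS D1)) : modX₂ D1 c ∈ modNodes D1 := nodeEnum_mem _ _ c

theorem modX₂_injective : Function.Injective (modX₂ D1) := nodeEnum_injective _ _

theorem modX₁_injective : Function.Injective (modX₁ hA D1) := by
  intro c d hcd
  exact modX₂_injective (frobPlace_injective_of_pow (VqR hA) (VqR_algebraMap hA) hq.out.pos
    (VqR_pow hA) hcd)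

/-! ### the nodes avoid the boundaries of the charts -/

include hqM h1 h2 hT in
theorem modX₂_not_mem (c : Fin (modS D1)) :
    modX₂ D1 c ∉ (polesOf (K := kA) (D2.redF (Gin0.jF (M * q)))).support ∧
      modX₂ D1 c ∉ (zerosOf (K := kA) (D2.redF (Gin0.jF (M * q)) -
        algebraMap kA (FRes A M) (IsLocalRing.residue A (c0 hA D1)))).support := by
  have hx := modX₂_mem (D1 := D1) c
  rw [redF_jF₂ hqM hA h1 h2, residue_c0 hT]
  refine ⟨not_mem_support_polesOf ?_, not_mem_support_zerosOf (c0bar_spec hA h1 _ hx)⟩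
  show VqR hA (Gink.jK A M) ∈ _
  rw [VqR_jK]
  exact (modX₂ D1 c).toValuationSubring.pow_mem hx.1 q

include hqM h1 hT in
theorem modX₁_not_mem (c : Fin (modS D1)) :
    modX₁ hA D1 c ∉ (polesOf (K := kA) (D1.redF (Gin0.jF (M * q)))).support ∧
      modX₁ hA D1 c ∉ (zerosOf (K := kA) (D1.redF (Gin0.jF (M * q)) -
        algebraMap kA (FRes A M) (IsLocalRing.residue A (c0 hA D1)))).support := by
  have hx := modX₂_mem (D1 := D1) c
  rw [redF_jF₁ hqM hA h1, residue_c0 hT]
  refine ⟨not_mem_support_polesOf ?_, not_mem_support_zerosOf ?_⟩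
  · show VqR hA (Gink.jK A M) ∈ (modX₂ D1 c).toValuationSubring
    rw [VqR_jK]
    exact (modX₂ D1 c).toValuationSubring.pow_mem hx.1 q
  · rw [modX₁, adicValuation_frobPlace_lt_one_iff, map_sub, VqR_algebraMap]
    exact c0bar_spec hA h1 _ hx

/-! ### (GLUE) -/

/-- reductions of functions regular away from the poles of `j` are regular away from the poles of
`j̄` (on both components), given a sup-norm frame for `j` -/
theorem red_mem_regAway {n : ℕ} {θ : Fin n → FBar (M * q)}
    (hfr : Frame.IsFrameFamilyS D1 D2 (Gin0.jF (M * q)) θ) {f : FBar (M * q)}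
    (hf : f ∈ regAway Qb (Gin0.jF (M * q))) (hf1 : f ∈ D1.O) (hf2 : f ∈ D2.O) :
    D1.redF f ∈ regAway kA (D1.redF (Gin0.jF (M * q))) ∧
      D2.redF f ∈ regAway kA (D2.redF (Gin0.jF (M * q))) := by
  have hint : IsIntegral (Algebra.adjoin Qb {Gin0.jF (M * q)}) f :=
    Old.mem_integralClosure_of_forall_place (Gin0.jF (M * q)) (Gin0.transcendental_jF (M * q)) hf
  have h := hfr.isIntegralElem_red (Frame.mem_supO.2 ⟨hf1, hf2⟩) hint
  exact ⟨fun Q hQ => Frame.mem_valuationSubring_of_isIntegralElem h.1 Q.toValuationSubring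
      (fun c => Q.algebraMap_mem' c) hQ,
    fun Q hQ => Frame.mem_valuationSubring_of_isIntegralElem h.2 Q.toValuationSubring
      (fun c => Q.algebraMap_mem' c) hQ⟩

include hqM h1 h2 hT in
/-- **(GLUE)** for the modular datum, in the shape of `NodalCtx.glue` -/
theorem mod_glue {n : ℕ} {θ : Fin n → FBar (M * q)}
    (hfr : Frame.IsFrameFamilyS D1 D2 (Gin0.jF (M * q)) θ)
    (hdeg : ∀ Q : Place kA (FRes A M), Q.deg = 1)
    (a b : ℕ) (f : FBar (M * q))
    (hf : f ∈ riemannRochSpace ((modDatum hA D1 D2).chartDiv a b))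
    (hf1 : f ∈ D1.O) (hf2 : f ∈ D2.O) (c : Fin (modS D1)) :
    ∃ α : kA, HasValueAt (modX₁ hA D1 c) (D1.redF f) α ∧ HasValueAt (modX₂ D1 c) (D2.redF f) α := by
  have hx := modX₂_mem (D1 := D1) c
  have hJ1 := redF_jF₁ hqM hA h1
  have hJ2 := redF_jF₂ hqM hA h1 h2
  have hVJ : VqR hA (Gink.jK A M) ∈ regAway kA (Gink.jK A M) := by
    intro Q hQ
    rw [VqR_jK]
    exact Q.toValuationSubring.pow_mem hQ q
  have hchart1 : ∀ f ∈ regAway Qb (Gin0.jF (M * q)), f ∈ D1.O → f ∈ D2.O →
      D1.redF f ∈ regAway kA (Gink.jK A M) := by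
    intro f hf hf1 hf2
    have := (red_mem_regAway hfr hf hf1 hf2).1
    rwa [hJ1] at this
  have hchart2 : ∀ f ∈ regAway Qb (Gin0.jF (M * q)), f ∈ D1.O → f ∈ D2.O →
      D2.redF f ∈ regAway kA (Gink.jK A M) := by
    intro f hf hf1 hf2 Q hQ
    have := (red_mem_regAway hfr hf hf1 hf2).2
    rw [hJ2] at this
    exact this Q (hVJ Q hQ)
  have hlift : ∀ z : FRes A M, z ∈ regAway kA (Gink.jK A M) →
      ∃ f ∈ regAway Qb (Gin0.jF (M * q)), f ∈ D1.O ∧ f ∈ D2.O ∧ D1.redF f = z ∧
        D2.redF f = VqR hA z := fun z hz => Old.exists_lift hqM hA h1 h2 z hz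
  -- the second chart function
  set w : FBar (M * q) := Gin0.jF (M * q) - algebraMap Qb (FBar (M * q)) ((c0 hA D1 : A) : Qb)
    with hw
  have hw0 : w ≠ 0 := by
    intro h
    apply Gin0.transcendental_jF (M * q)
    rw [sub_eq_zero.1 h]
    exact isAlgebraic_algebraMap _
  have hwreg : ∀ Q : Place Qb (FBar (M * q)), Gin0.jF (M * q) ∈ Q.toValuationSubring →
      w ∈ Q.toValuationSubring :=
    fun Q hQ => sub_mem hQ (Q.algebraMap_mem' _)
  have hc1 : algebraMap Qb (FBar (M * q)) ((c0 hA D1 : A) : Qb) ∈ D1.O :=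
    (D1.algebraMap_mem_iff _).2 (c0 hA D1).2
  have hc2 : algebraMap Qb (FBar (M * q)) ((c0 hA D1 : A) : Qb) ∈ D2.O :=
    (D2.algebraMap_mem_iff _).2 (c0 hA D1).2
  have hj1 := jF_mem₁ hqM hA h1
  have hj2 := jF_mem₂ hqM hA h1 h2
  have hw1 : w ∈ D1.O := sub_mem hj1 hc1
  have hw2 : w ∈ D2.O := sub_mem hj2 hc2
  have hwred2 : D2.redF w = VqR hA (Gink.jK A M) - algebraMap kA (FRes A M) (c0bar hA D1) := by
    rw [hw, D2.redF_sub hj2 hc2, hJ2, D2.redF_algebraMap, residue_c0 hT]
    rfl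
  have hnv := c0bar_spec hA h1 _ hx
  have hwred : D2.redF w ≠ 0 := by
    rw [hwred2]
    intro h0
    apply hnv
    rw [HasValueAt, h0, map_zero]
    exact zero_lt_one
  have hx'w : (D2.redF w)⁻¹ ∈ (modX₂ D1 c).toValuationSubring := by
    rw [hwred2]
    by_contra hcon
    apply hnv
    rw [HasValueAt, adicValuation_lt_one_iff]
    exact Or.inr hcon
  have hY2 : D2.redF (Yw M q hqM) ≠ 0 := by
    rw [redF₂_Yw hqM h2]; exact H₂_ne_zero h1
  have hx'H : (modX₂ D1 c).adicValuation (D2.redF (Yw M q hqM)) < 1 := by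
    rw [redF₂_Yw hqM h2]; exact hx.2
  exact glue_chart D1 D2 (rankOne_of_liesOverPrime A hA) (Gin0.jF (M * q)) (Gink.jK A M) (VqR hA)
    (VqR_algebraMap hA) hdeg hchart1 hchart2 hVJ hlift (Yw_mem_regAway hqM) (Yw_inv_mem_regAway hqM)
    hY2 (modX₂ D1 c) hx.1 hx'H (comap_ne_top_of_pow (VqR hA) hq.out.pos (VqR_pow hA) _)
    hw0 hwreg hw1 hw2 hwred hx'w a b hf hf1 hf2

end WithDivisors

end Fermat.Agent.LSb.Unit
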