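/-
LSb / Unit / Ctx  (helper4)

**Assembly of `NodalCtx` for the modular nodal datum `modDatum hA D1 D2`** at level `M q`, `q ∤ M`.

Inputs still taken as hypotheses:
* `h1 : Old.IsGaussOne D1`, `h2 : Old.IsGaussTwo D1 D2 wq`  (brick B1, helper9),
* `hcount` (COUNT, helper5).
Everything else is discharged here from the bricks of helper2 (frame, N1), helper7 (chart,
degrees), and `Unit/Instance` (nodes, GLUE).
-/
import Fermat.Agent.LSb.Unit.Instance
import Fermat.Agent.LSb.Unit.NodePos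
import Fermat.Agent.LSb.Old.CtxFields
import Fermat.Agent.LSb.Frame.Modular
import Fermat.Agent.LSb.Kum.Teich

set_option autoImplicit false
set_option linter.unusedSectionVars false
set_option linter.unusedVariables false

noncomputable section

namespace Fermat.Agent.LSb.Unit

open AlgebraicCurve ModularCurve HahnSeries Fermat.Agent.S18lib Fermat.Agent.ProgramR

local notation "Qb" => AlgebraicClosure ℚ

variable {M q : ℕ} [NeZero M] [NeZero q] [hq : Fact q.Prime]
variable {A : ValuationSubring (AlgebraicClosure ℚ)}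

local notation "kA" => IsLocalRing.ResidueField A

variable [HasPrincipalDivisors (AlgebraicClosure ℚ) (FBar M)]
variable [HasPrincipalDivisors (AlgebraicClosure ℚ) (FBar (M * q))]
variable [HasPrincipalDivisors (IsLocalRing.ResidueField A) (FRes A M)]

/-- inertia-fixed lifts exist (helper2's `Kum.exists_inertia_fixed_lift`) -/
theorem hasFixedLifts (hA : A.LiesOverPrime q) : HasFixedLifts A :=
  fun cbar => Kum.exists_inertia_fixed_lift hA cbar

/-- the chart constant of the modular datum is fixed by inertia -/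
theorem c0_fixed (hA : A.LiesOverPrime q) (D1 : GaussDatum A (FBar (M * q)) (FRes A M))
    (σ : Qb ≃ₐ[ℚ] Qb) (hσ : σ ∈ A.inertiaSubgroupIn ℚ) :
    σ ((c0 hA D1 : A) : Qb) = ((c0 hA D1 : A) : Qb) :=
  (c0_spec (hasFixedLifts hA) hA D1).2 σ hσ

/-- **the modular `NodalCtx`** -/
theorem modNodalCtx (hqM : ¬ q ∣ M) (hA : A.LiesOverPrime q)
    {D1 D2 : GaussDatum A (FBar (M * q)) (FRes A M)}
    (h1 : Old.IsGaussOne D1) (h2 : Old.IsGaussTwo D1 D2 (wqR M q hqM))
    {g gM : ℕ} (hF : IsCurveOfGenus Qb (FBar (M * q)) g) (hFk : IsCurveOfGenus kA (FRes A M) gM)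
    (hcount : g + 1 ≤ gM + gM + modS D1) :
    NodalCtx (modDatum hA D1 D2) g gM gM := by
  have hwq : ∀ x, wqR M q hqM (wqR M q hqM x) = x := fun x => Val.wq_wq M q hq.out hqM x
  have hT := hasFixedLifts hA
  obtain ⟨θ, hfr⟩ := Frame.modular_exists_isFrameFamilyS hqM hA h1 h2 hwq
  exact
    { hF := hF
      hF₁ := hFk
      hF₂ := hFk
      rankOne := rankOne_of_liesOverPrime A hA
      hD := hfr.hasOrthonormalBasesS
      P₁_nonneg := Old.chartDatum_P₁_nonneg _ _ _ _ _ _ _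
      P₂_nonneg := Old.chartDatum_P₂_nonneg _ _ _ _ _ _ _
      P_disjoint := Old.chartDatum_P_disjoint _ _ _ _ _ _ _
      Q₁₁_nonneg := Old.chartDatum_Q₁₁_nonneg _ _ _ _ _ _ _
      Q₂₁_nonneg := Old.chartDatum_Q₂₁_nonneg _ _ _ _ _ _ _
      Q₁₂_nonneg := Old.chartDatum_Q₁₂_nonneg _ _ _ _ _ _ _
      Q₂₂_nonneg := Old.chartDatum_Q₂₂_nonneg _ _ _ _ _ _ _
      Q₁_disjoint := Old.chartDatum_Q₁_disjoint _ _ _ _ _ _ _
      Q₂_disjoint := Old.chartDatum_Q₂_disjoint _ _ _ _ _ _ _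
      deg_Q₁₁_pos := Old.modular_deg_Q₁₁_pos _ _ _ _ hqM hA h1
      deg_Q₂₁_pos := Old.modular_deg_Q₂₁_pos _ _ _ _ hqM hA h1
      deg_Q₁₂_pos := Old.modular_deg_Q₁₂_pos _ _ _ _ hqM hA h1 h2
      deg_Q₂₂_pos := Old.modular_deg_Q₂₂_pos _ _ _ _ hqM hA h1 h2
      deg_Q₁_le := Old.modular_deg_Q₁_le _ _ _ _ hqM hA h1 h2
      deg_Q₂_le := Old.modular_deg_Q₂_le _ _ _ _ hqM hA h1 h2
      x₁_injective := modX₁_injective hA
      x₂_injective := modX₂_injective
      x₁_not_mem := modX₁_not_mem hqM hA h1 hT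
      x₂_not_mem := modX₂_not_mem hqM hA h1 h2 hT
      chart₁ := fun a b f hf hf1 hf2 => (Old.modular_chart _ _ _ _ hfr a b f hf hf1 hf2).1
      chart₂ := fun a b f hf hf1 hf2 => (Old.modular_chart _ _ _ _ hfr a b f hf hf1 hf2).2
      glue := fun a b f hf hf1 hf2 c => mod_glue hqM hA h1 h2 hT hfr hFk.deg_eq_one a b f hf hf1 hf2 c
      count := hcount
      s_pos := modS_pos hA h1 hFk }

/-- the same with `D2 := w_q^* D1` (`modD2`): only `D1` with (H1) is needed -/
theorem modNodalCtx' (hqM : ¬ q ∣ M) (hA : A.LiesOverPrime q)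
    {D1 : GaussDatum A (FBar (M * q)) (FRes A M)}
    (h1 : Old.IsGaussOne D1)
    {g gM : ℕ} (hF : IsCurveOfGenus Qb (FBar (M * q)) g) (hFk : IsCurveOfGenus kA (FRes A M) gM)
    (hcount : g + 1 ≤ gM + gM + modS D1) :
    NodalCtx (modDatum hA D1 (modD2 hqM D1)) g gM gM :=
  modNodalCtx hqM hA h1 (isGaussTwo_modD2 hqM D1) hF hFk hcount

end Fermat.Agent.LSb.Unit
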