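/-
LSb / Unit / CountAdapter  (helper4)

Adapter between helper5's COUNT (`Count.count_five_le'`: the number of ZEROS of
`h = Δ̄^(1-q) ∈ FRes A M`) and the number of nodes `modS D1` of the modular datum (`j̄` regular and
`H₂ = 0`): a nonzero polynomial in `j̄` has no zero at a pole of `j̄`, so the two sets agree.
-/
import Fermat.Agent.LSb.Unit.Ctx
import Fermat.Agent.LSb.Count.Main

set_option autoImplicit false
set_option linter.unusedSectionVars false
set_option linter.unusedVariables false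
set_option linter.style.haveILetI false

noncomputable section

namespace Fermat.Agent.LSb.Unit

open AlgebraicCurve ModularCurve HahnSeries Fermat.Agent.S18lib Fermat.Agent.ProgramR

local notation "Qb" => AlgebraicClosure ℚ

section General

variable {K F : Type*} [Field K] [Field F] [Algebra K F]

/-- a nonzero polynomial in `J` has no zero at a pole of `J` -/
theorem mem_of_ord_aeval_pos {x : Place K F} {J : F} {P : Polynomial K} (hP : P ≠ 0)
    (h : 0 < x.ord (Polynomial.aeval J P)) : J ∈ x.toValuationSubring := by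
  by_contra hJ
  have hJ0 : J ≠ 0 := fun h0 => hJ (h0 ▸ x.toValuationSubring.zero_mem)
  have hordJ : x.ord J < 0 := by
    by_contra hge
    exact hJ ((FF.mem_iff_ord_nonneg x J).2 (not_lt.1 hge))
  -- `z = J⁻¹` vanishes at `x`
  have hz : HasValueAt x J⁻¹ 0 := by
    rw [LSb.hasValueAt_zero_iff, Place.ord_inv]
    right; omega
  have h1 := HasValueAt.aeval hz P.reverse
  have hc : P.reverse.eval 0 ≠ 0 := by
    rw [← Polynomial.coeff_zero_eq_eval_zero, Polynomial.coeff_zero_reverse]
    exact Polynomial.leadingCoeff_ne_zero.2 hP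
  have hord0 : x.ord (Polynomial.aeval J⁻¹ P.reverse) = 0 := LSb.HasValueAt.ord_eq_zero h1 hc
  have hne : Polynomial.aeval J⁻¹ P.reverse ≠ 0 := LSb.HasValueAt.ne_zero h1 hc
  letI : Invertible J := invertibleOfNonzero hJ0
  have h2 := Polynomial.eval₂_reverse_mul_pow (algebraMap K F) J P
  rw [invOf_eq_inv] at h2
  rw [Polynomial.aeval_def, ← h2, ← Polynomial.aeval_def, x.ord_mul hne (pow_ne_zero _ hJ0),
    Cech.ord_pow, hord0] at h
  have : (P.natDegree : ℤ) * x.ord J ≤ 0 :=
    mul_nonpos_of_nonneg_of_nonpos (Nat.cast_nonneg _) hordJ.le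
  omega

/-- the node set of `(J, P(J))` is the zero set of `P(J)` -/
theorem nodeSet_eq_zerosOf {J H : F} {P : Polynomial K} (hP : P ≠ 0)
    (hH : H = Polynomial.aeval J P) (hH0 : H ≠ 0) :
    nodeSet K J H = Tame.zerosOf (K := K) H := by
  ext x
  rw [mem_nodeSet, Tame.mem_zerosOf, LSb.adicValuation_lt_one_iff]
  constructor
  · rintro ⟨-, h⟩
    exact h.resolve_left hH0
  · intro h
    exact ⟨mem_of_ord_aeval_pos hP (hH ▸ h), Or.inr h⟩

end General

variable {M q : ℕ} [NeZero M] [NeZero q] [hq : Fact q.Prime]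
variable {A : ValuationSubring (AlgebraicClosure ℚ)}

local notation "kA" => IsLocalRing.ResidueField A

/-- the nodes of the modular datum are the zeros of `H₂` -/
theorem modNodes_eq_zerosOf (hA : A.LiesOverPrime q)
    {D1 : GaussDatum A (FBar (M * q)) (FRes A M)} (h1 : Old.IsGaussOne D1) :
    modNodes D1 = Tame.zerosOf (K := kA) (H₂ D1) := by
  obtain ⟨P, hP, hdeg⟩ := exists_poly_H₂ hA h1
  have hP0 : P ≠ 0 := by
    rintro rfl
    rw [map_zero] at hP
    exact H₂_ne_zero h1 hP
  exact nodeSet_eq_zerosOf hP0 hP (H₂_ne_zero h1)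

theorem modS_eq_card_zerosOf (hA : A.LiesOverPrime q)
    {D1 : GaussDatum A (FBar (M * q)) (FRes A M)} (h1 : Old.IsGaussOne D1) :
    modS D1 = Nat.card (Tame.zerosOf (K := kA) (H₂ D1)) := by
  rw [← modNodes_eq_zerosOf hA h1]
  rfl

/-- **COUNT for the modular datum, `q ≥ 5`** (helper5's `Count.count_five_le'`) -/
theorem mod_count_five_le (h5 : 5 ≤ q) (hqM : ¬ q ∣ M) (hA : A.LiesOverPrime q)
    {D1 : GaussDatum A (FBar (M * q)) (FRes A M)} (h1 : Old.IsGaussOne D1)
    {g gM : ℕ} (hF : IsCurveOfGenus Qb (FBar (M * q)) g) (hFk : IsCurveOfGenus kA (FRes A M) gM) :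
    g + 1 ≤ gM + gM + modS D1 := by
  have : NeZero (M * q) := ⟨Nat.mul_ne_zero (NeZero.ne M) (NeZero.ne q)⟩
  rw [modS_eq_card_zerosOf hA h1]
  exact Count.count_five_le' M A h5 hqM hA (H₂ D1) (coe_H₂_mul hA h1) hF hFk

variable [HasPrincipalDivisors (AlgebraicClosure ℚ) (FBar M)]
variable [HasPrincipalDivisors (AlgebraicClosure ℚ) (FBar (M * q))]
variable [HasPrincipalDivisors (IsLocalRing.ResidueField A) (FRes A M)]

/-- **the modular `NodalCtx` for `q ≥ 5`: only `D1` with (H1) is needed** -/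
theorem modNodalCtx_five_le (h5 : 5 ≤ q) (hqM : ¬ q ∣ M) (hA : A.LiesOverPrime q)
    {D1 : GaussDatum A (FBar (M * q)) (FRes A M)} (h1 : Old.IsGaussOne D1)
    {g gM : ℕ} (hF : IsCurveOfGenus Qb (FBar (M * q)) g) (hFk : IsCurveOfGenus kA (FRes A M) gM) :
    NodalCtx (modDatum hA D1 (modD2 hqM D1)) g gM gM :=
  modNodalCtx' hqM hA h1 hF hFk (mod_count_five_le h5 hqM hA h1 hF hFk)

end Fermat.Agent.LSb.Unit
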