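/-
LSb / Unit / Final  (helper4)

**INPUT (I) of `LSb/Main.lean` at every good pair** (`q ≥ 5`, or `q = 2 ∧ 9 ∣ M`, or
`q = 3 ∧ 4 ∣ M`): the modular instance of the nodal datum at level `M * q` for every valuation
ring `A` of `ℚ̄` above `q`; and the resulting unconditional `S34lib.UnipTors N p`.

Ingredients:
* `D1 := Val.gaussOne M q A hqM hA` (helper7/helper9: the Gauss datum of integral `t`-expansions)
  with (H1) `Val.isGaussOne_gaussOne`;
* `D2 := modD2 hqM D1` (the transport of `D1` by `w_q`) with (H2)+(H3) `isGaussTwo_modD2`;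
* the nodal context `modNodalCtx'` (`Unit/Ctx.lean`) + COUNT: helper5's `Count.count_five_le'`
  (`q ≥ 5`), helper6's `Count23.count_two` (`q = 2`, `9 ∣ M`), `Count23.count_three`
  (`q = 3`, `4 ∣ M`);
* the inertia compatibility `Kum.chartDatum_isInertial` (helper2);
* the genus facts `Gin0.exists_isCurveOfGenus_FBar`, `S37lib.B3.exists_isCurveOfGenus_FRes`.
-/
import Fermat.Agent.LSb.Unit.CountAdapter
import Fermat.Agent.LSb.Count23.Two
import Fermat.Agent.LSb.Count23.Three
import Fermat.Agent.LSb.Kum.Inertial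
import Fermat.Agent.LSb.Val.D1H
import Fermat.Agent.LSb.Main

set_option autoImplicit false
set_option linter.unusedSectionVars false
set_option linter.unusedVariables false
set_option linter.style.haveILetI false

noncomputable section

namespace Fermat.Agent.LSb.Unit

open AlgebraicCurve ModularCurve HahnSeries Fermat.Agent.S18lib Fermat.Agent.S37lib

local notation "Qb" => AlgebraicClosure ℚ

/-- **inertia compatibility of the modular datum** (helper2's `Kum.chartDatum_isInertial`) -/
theorem modDatum_isInertial {M q : ℕ} [NeZero M] [NeZero q] [hq : Fact q.Prime]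
    {A : ValuationSubring (AlgebraicClosure ℚ)}
    [HasPrincipalDivisors (AlgebraicClosure ℚ) (FBar (M * q))]
    [HasPrincipalDivisors (IsLocalRing.ResidueField A) (FRes A M)]
    (hqM : ¬ q ∣ M) (hA : A.LiesOverPrime q)
    {D1 : GaussDatum A (FBar (M * q)) (FRes A M)} (h1 : Old.IsGaussOne D1)
    (hO1 : ∀ x ∈ D1.O, x ∈ V.gaussSubring (M * q) A)
    (σ : Qb ≃ₐ[ℚ] Qb) (hσ : σ ∈ A.inertiaSubgroupIn ℚ) :
    (modDatum hA D1 (modD2 hqM D1)).IsInertial
      (arithmeticGalois (modularFunctionFieldFull (M * q)) σ) :=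
  Kum.chartDatum_isInertial h1 hO1 (isGaussTwo_modD2 hqM D1) hσ
    (fun f => Val.wq_arithmeticRingAut M q hq.out hqM σ f)
    (c0 hA D1) (c0_fixed hA D1 σ hσ) (modS D1) (modX₁ hA D1) (modX₂ D1)

/-- **the modular instance at level `M * q` from the COUNT inequality** (any `q ∤ M`): the only
input which depends on the pair `(M, q)` is `g + 1 ≤ 2 gM + #nodes`. -/
theorem hasNodalInstance_of_count {M q : ℕ} [NeZero M] [NeZero q] [hq : Fact q.Prime]
    (hqM : ¬ q ∣ M) (A : ValuationSubring (AlgebraicClosure ℚ)) (hA : A.LiesOverPrime q)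
    (hcount : ∀ g gM : ℕ, IsCurveOfGenus Qb (FBar (M * q)) g →
      IsCurveOfGenus (IsLocalRing.ResidueField A) (FRes A M) gM →
      g + 1 ≤ gM + gM + modS (Val.gaussOne M q A hqM hA)) :
    HasNodalInstance (M * q) A := by
  haveI : NeZero (M * q) := ⟨Nat.mul_ne_zero (NeZero.ne M) (NeZero.ne q)⟩
  obtain ⟨g, hF, -⟩ := Gin0.exists_isCurveOfGenus_FBar (M * q)
  obtain ⟨g', hFM, -⟩ := Gin0.exists_isCurveOfGenus_FBar M
  obtain ⟨gM, hFk⟩ := S37lib.B3.exists_isCurveOfGenus_FRes A M hqM hA
  haveI : HasPrincipalDivisors Qb (FBar (M * q)) := hF.hasPrincipalDivisors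
  haveI : HasPrincipalDivisors Qb (FBar M) := hFM.hasPrincipalDivisors
  haveI : HasPrincipalDivisors (IsLocalRing.ResidueField A) (FRes A M) := hFk.hasPrincipalDivisors
  have h1 := Val.isGaussOne_gaussOne M q A hqM hA
  refine ⟨FRes A M, FRes A M, inferInstance, inferInstance, inferInstance, inferInstance,
    modDatum hA (Val.gaussOne M q A hqM hA) (modD2 hqM (Val.gaussOne M q A hqM hA)), g, gM, gM,
    modNodalCtx' hqM hA h1 hF hFk (hcount g gM hF hFk), fun σ hσ => ?_⟩
  exact modDatum_isInertial hqM hA h1 (fun x hx => Val.gaussOne_O_le M q A hqM hA hx) σ hσ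

/-- **the modular instance at level `M * q`, `q ≥ 5`** -/
theorem hasNodalInstance_five_le {M q : ℕ} (hM : 0 < M) (hq : q.Prime) (hqM : ¬ q ∣ M)
    (h5 : 5 ≤ q) (A : ValuationSubring (AlgebraicClosure ℚ)) (hA : A.LiesOverPrime q) :
    HasNodalInstance (M * q) A := by
  haveI : NeZero M := ⟨hM.ne'⟩
  haveI : NeZero q := ⟨hq.ne_zero⟩
  haveI : Fact q.Prime := ⟨hq⟩
  exact hasNodalInstance_of_count hqM A hA fun g gM hF hFk =>
    mod_count_five_le h5 hqM hA (Val.isGaussOne_gaussOne M q A hqM hA) hF hFk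

/-- **INPUT (I) for `q ≥ 5`** in helper3's shape -/
theorem instanceStatement_five_le {M q : ℕ} (hM : 0 < M) (hq : q.Prime) (hqM : ¬ q ∣ M)
    (h5 : 5 ≤ q) : InstanceStatement M q :=
  fun A hA => hasNodalInstance_five_le hM hq hqM h5 A hA

/-- **the modular instance at level `M * 2`, `9 ∣ M`** (helper6's `Count23.count_two`) -/
theorem hasNodalInstance_two {M : ℕ} (hM : 0 < M) (hqM : ¬ 2 ∣ M) (h9 : 9 ∣ M)
    (A : ValuationSubring (AlgebraicClosure ℚ)) (hA : A.LiesOverPrime 2) :
    HasNodalInstance (M * 2) A := by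
  haveI : NeZero M := ⟨hM.ne'⟩
  exact hasNodalInstance_of_count hqM A hA fun g gM hF hFk =>
    Count23.count_two h9 hqM hA (Val.isGaussOne_gaussOne M 2 A hqM hA) hF hFk

/-- **the modular instance at level `M * 3`, `4 ∣ M`** (helper6's `Count23.count_three`) -/
theorem hasNodalInstance_three {M : ℕ} (hM : 0 < M) (hqM : ¬ 3 ∣ M) (h4 : 4 ∣ M)
    (A : ValuationSubring (AlgebraicClosure ℚ)) (hA : A.LiesOverPrime 3) :
    HasNodalInstance (M * 3) A := by
  haveI : NeZero M := ⟨hM.ne'⟩
  exact hasNodalInstance_of_count hqM A hA fun g gM hF hFk =>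
    Count23.count_three h4 hqM hA (Val.isGaussOne_gaussOne M 3 A hqM hA) hF hFk

/-- **INPUT (I) at every good pair**: exactly the hypothesis `hI` of helper3's `LSb.unipTors`. -/
theorem instanceStatement_goodPair (M q : ℕ) (hM : 0 < M) (hq : q.Prime) (hqM : ¬ q ∣ M)
    (hgood : GoodPair M q) : InstanceStatement M q := by
  rcases hgood with h5 | ⟨rfl, h9⟩ | ⟨rfl, h4⟩
  · exact instanceStatement_five_le hM hq hqM h5
  · exact fun A hA => hasNodalInstance_two hM hqM h9 A hA
  · exact fun A hA => hasNodalInstance_three hM hqM h4 A hA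

end Fermat.Agent.LSb.Unit
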