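/-
LSb / Unit / SuperPoly  (helper4)

**The supersingular polynomial.**  In characteristic `p` the series `Δ̄(t)/Δ̄(t^p) = Δ̄^(1-p)` is a
POLYNOMIAL in `j̄`: reduce the monic equation of `X0 = Δ(t)/Δ(t^p)` over `ℤ̄[j]`,

  `X0^(p+1) - ε⁻¹ E_p(j) X0^p + p^12 (…) = 0`,

modulo `p`.  Consequence: the node set of the modular datum is nonempty.
-/
import Fermat.Agent.LSb.Unit.XY

set_option autoImplicit false

noncomputable section

namespace Fermat.Agent.LSb.Unit

open ModularCurve HahnSeries Fermat.Agent.S28lib Fermat.Agent.S28lib.BrickB Polynomial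

local notation "Zb" => integralClosure ℤ ℂ

/-- the explicit monic equation of `X0` over `ℤ̄[j]`: all lower coefficients except the one of
`X0^p` are divisible by `p^12` -/
theorem exists_rel_X0_Zb (p : ℕ) [NeZero p] (hp : p.Prime) :
    ∃ (B : Polynomial Zb) (a : ℕ → Polynomial Zb),
      X0 Zb p ^ (p + 1) + (evalJR Zb B * X0 Zb p ^ p +
        ∑ j ∈ Finset.range p, evalJR Zb (a j * C ((p : Zb) ^ 12)) * X0 Zb p ^ j) = 0 := by
  obtain ⟨E, ε, hE0, hEtop, hsum⟩ := exists_esymm_polys_const_int p hp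
  have hsum' : ∑ j ∈ Finset.range (p + 1 + 1), (-1 : LaurentSeries Zb) ^ j *
      (evalJR Zb (E j) * Y0 Zb p ^ (p + 1 - j)) = 0 := hsum
  set u : (Polynomial Zb)ˣ := Units.map (Polynomial.C : Zb →+* Polynomial Zb).toMonoidHom ε with hu
  have hen : E (p + 1) = (u : Polynomial Zb) * Polynomial.C ((p : Zb) ^ 12) := by
    rw [hEtop, Polynomial.C_mul]
    rfl
  have hφc : evalJR Zb (Polynomial.C ((p : Zb) ^ 12)) = HahnSeries.C ((p : Zb) ^ 12) := by
    rw [evalJR_apply, Polynomial.aeval_C, algebraMap_eq_C]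
  have hxy : X0 Zb p * Y0 Zb p = evalJR Zb (Polynomial.C ((p : Zb) ^ 12)) := by
    rw [hφc, X0_mul_Y0]
  have hreg : ∀ z : LaurentSeries Zb, evalJR Zb (Polynomial.C ((p : Zb) ^ 12)) * z = 0 → z = 0 := by
    intro z hz
    rw [hφc] at hz
    rcases mul_eq_zero.mp hz with h | h
    · exfalso
      have h1 := congrArg (fun x : LaurentSeries Zb => x.coeff 0) h
      simp only [HahnSeries.C_apply, HahnSeries.coeff_single_same, HahnSeries.coeff_zero] at h1
      have hp0 : (p : Zb) ≠ 0 := by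
        intro h0
        have := congrArg (algebraMap Zb ℂ) h0
        rw [map_natCast, map_zero] at this
        exact (natCast_ne_zero_C p) this
      exact pow_ne_zero 12 hp0 h1
    · exact h
  have key := exists_monic_of_rel_inv (evalJR Zb) (p + 1) E (Y0 Zb p) hsum' u _ hen (X0 Zb p) hxy hreg
  rw [monicOf_eval₂, Finset.sum_range_succ] at key
  set c : Polynomial Zb := Polynomial.C ((p : Zb) ^ 12) with hc
  set a : ℕ → Polynomial Zb := fun j =>
    (-1) ^ (p + 1 + j) * ((u⁻¹ : (Polynomial Zb)ˣ) : Polynomial Zb) * E j * c ^ (p - j - 1)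
    with ha
  have e2 : ∀ j ∈ Finset.range p,
      evalJR Zb ((-1) ^ (p + 1 + j) * ((u⁻¹ : (Polynomial Zb)ˣ) : Polynomial Zb) * E j *
        c ^ (p + 1 - j - 1)) * X0 Zb p ^ j = evalJR Zb (a j * c) * X0 Zb p ^ j := by
    intro j hj
    have hj' := Finset.mem_range.mp hj
    have h3 : p + 1 - j - 1 = (p - j - 1) + 1 := by omega
    have h4 : (-1) ^ (p + 1 + j) * ((u⁻¹ : (Polynomial Zb)ˣ) : Polynomial Zb) * E j *
        c ^ (p + 1 - j - 1) = a j * c := by
      simp only [ha]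
      rw [h3, pow_succ]
      ring
    rw [h4]
  have e1 : (-1) ^ (p + 1 + p) * ((u⁻¹ : (Polynomial Zb)ˣ) : Polynomial Zb) * E p *
      c ^ (p + 1 - p - 1) =
      (-1) ^ (p + 1 + p) * ((u⁻¹ : (Polynomial Zb)ˣ) : Polynomial Zb) * E p := by
    have h3 : p + 1 - p - 1 = 0 := by omega
    rw [h3, pow_zero, mul_one]
  rw [Finset.sum_congr rfl e2, e1, add_comm (∑ j ∈ Finset.range p, _)] at key
  exact ⟨_, a, key⟩

/-- **in characteristic `p`, `Δ̄(t)/Δ̄(t^p)` is a polynomial in `j̄`** -/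
theorem exists_poly_X0_char (k : Type*) [Field k] (p : ℕ) [NeZero p] (hp : p.Prime) [CharP k p]
    (ι : Zb →+* k) : ∃ P : Polynomial k, X0 k p = evalJR k P := by
  obtain ⟨B, a, hrel⟩ := exists_rel_X0_Zb p hp
  have h1 := congrArg (coeffMap ι) hrel
  rw [map_zero, map_add, map_add, map_pow, map_mul, map_pow, map_sum, coeffMap_X0,
    coeffMap_evalJR] at h1
  have hz : ∑ j ∈ Finset.range p,
      coeffMap ι (evalJR Zb (a j * C ((p : Zb) ^ 12)) * X0 Zb p ^ j) = 0 := by
    refine Finset.sum_eq_zero fun j _ => ?_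
    rw [map_mul, coeffMap_evalJR, Polynomial.map_mul, Polynomial.map_C, map_pow, map_natCast,
      CharP.cast_eq_zero k p, zero_pow (by norm_num), map_zero, mul_zero, map_zero, zero_mul]
  rw [hz, add_zero, pow_succ', ← add_mul] at h1
  have hX : X0 k p ≠ 0 := by
    rw [X0]
    exact mul_ne_zero (DeltaQ_ne_zero k) (qExpand_ne_zero p (DeltaInvQ_ne_zero (k := k)))
  rcases mul_eq_zero.mp h1 with h | h
  · refine ⟨-(B.map ι), ?_⟩
    rw [map_neg]
    exact eq_neg_of_add_eq_zero_left h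
  · exact absurd (pow_eq_zero_iff (NeZero.ne p) |>.mp h) hX

end Fermat.Agent.LSb.Unit
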