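/-
LSb / Unit / NodePos  (helper4)

**The modular datum has at least one node** (`NodalCtx.s_pos`): `H₂ = P(j̄)` for a non-constant
polynomial `P` (the supersingular polynomial, `Unit/SuperPoly`), `k` is algebraically closed, and
`j̄` takes every value.
-/
import Fermat.Agent.LSb.Unit.Instance
import Fermat.Agent.LSb.Unit.SuperPoly

set_option autoImplicit false
set_option linter.unusedSectionVars false
set_option linter.unusedVariables false

noncomputable section

namespace Fermat.Agent.LSb.Unit

open AlgebraicCurve ModularCurve HahnSeries Fermat.Agent.S18lib Fermat.Agent.ProgramR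
open Fermat.Agent.S28lib Fermat.Agent.S28lib.BrickB

local notation "Qb" => AlgebraicClosure ℚ

/-! ### values of polynomials, existence of places with a prescribed value -/

section General

variable {K F : Type*} [Field K] [Field F] [Algebra K F]

/-- polynomials in a function with a value have the evaluated value -/
theorem HasValueAt.aeval {Q : Place K F} {z : F} {c : K} (h : HasValueAt Q z c)
    (P : Polynomial K) : HasValueAt Q (Polynomial.aeval z P) (P.eval c) := by
  induction P using Polynomial.induction_on' with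
  | add p r hp hr =>
    rw [map_add, Polynomial.eval_add]
    exact LSb.HasValueAt.add hp hr
  | monomial n a =>
    rw [Polynomial.aeval_monomial, Polynomial.eval_monomial]
    exact LSb.HasValueAt.mul (hasValueAt_const a) (LSb.HasValueAt.pow h n)

/-- a transcendental function takes every value -/
theorem exists_hasValueAt_of_transcendental {g : ℕ} (hF : IsCurveOfGenus K F g) {z : F}
    (hz : Transcendental K z) (c : K) : ∃ x : Place K F, HasValueAt x z c := by
  by_contra hcon
  push Not at hcon
  set w : F := (z - algebraMap K F c)⁻¹ with hw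
  have hzc : z - algebraMap K F c ≠ 0 := by
    intro h
    apply hz
    rw [sub_eq_zero.1 h]
    exact isAlgebraic_algebraMap _
  have hw0 : w ≠ 0 := inv_ne_zero hzc
  have hmem : w ∈ riemannRochSpace (0 : Divisor K F) := by
    rw [mem_riemannRochSpace_iff]
    intro x
    right
    have h1 := hcon x
    rw [LSb.hasValueAt_iff, not_or, not_lt] at h1
    rw [hw, Place.ord_inv]
    simp only [Finsupp.coe_zero, Pi.zero_apply, neg_zero]
    omega
  rw [hF.riemannRochSpace_zero] at hmem
  obtain ⟨d, hd⟩ := Algebra.mem_bot.1 hmem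
  apply hz
  have : z = algebraMap K F (c + d⁻¹) := by
    have hd0 : algebraMap K F d ≠ 0 := by rw [hd]; exact hw0
    have h2 : z - algebraMap K F c = (algebraMap K F d)⁻¹ := by
      rw [hd, hw, inv_inv]
    rw [map_add, map_inv₀, ← h2]
    ring
  rw [this]
  exact isAlgebraic_algebraMap _

end General

/-! ### the order of `Δ̄(t)/Δ̄(t^p)` -/

theorem order_X0 (k : Type*) [Field k] (p : ℕ) [NeZero p] : (X0 k p).order = 1 - (p : ℤ) := by
  rw [X0, HahnSeries.order_mul (DeltaQ_ne_zero k)
    (qExpand_ne_zero p (DeltaInvQ_ne_zero (k := k))), order_DeltaQ, order_qExpand,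
    order_DeltaInvQ]
  ring

variable {M q : ℕ} [NeZero M] [NeZero q] [hq : Fact q.Prime]
variable {A : ValuationSubring (AlgebraicClosure ℚ)}

local notation "kA" => IsLocalRing.ResidueField A

/-- **`H₂` is a polynomial in `j̄`** (the supersingular polynomial) -/
theorem exists_poly_H₂ (hA : A.LiesOverPrime q) {D1 : GaussDatum A (FBar (M * q)) (FRes A M)}
    (h1 : Old.IsGaussOne D1) :
    ∃ P : Polynomial kA, H₂ D1 = Polynomial.aeval (Gink.jK A M) P ∧ P.degree ≠ 0 := by
  have := Old.charP_kRes hA
  obtain ⟨P, hP⟩ := exists_poly_X0_char kA q hq.out (Gink.iotaA A)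
  refine ⟨P, Subtype.ext ?_, ?_⟩
  · rw [coe_H₂ h1, Gink.coe_aeval_jK, hP]
    rfl
  · intro hdeg
    obtain ⟨a, ha⟩ : ∃ a : kA, P = Polynomial.C a := ⟨_, Polynomial.eq_C_of_degree_eq_zero hdeg⟩
    have h2 : X0 kA q = HahnSeries.C a := by
      rw [hP, ha, evalJR_apply, Polynomial.aeval_C, algebraMap_eq_C]
    have h3 := order_X0 kA q
    rw [h2, HahnSeries.order_C] at h3
    have : (2 : ℤ) ≤ q := by exact_mod_cast hq.out.two_le
    omega

variable [HasPrincipalDivisors (IsLocalRing.ResidueField A) (FRes A M)]

/-- **the modular datum has a node** -/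
theorem modS_pos (hA : A.LiesOverPrime q) {D1 : GaussDatum A (FBar (M * q)) (FRes A M)}
    (h1 : Old.IsGaussOne D1) {gM : ℕ} (hFk : IsCurveOfGenus kA (FRes A M) gM) :
    0 < modS D1 := by
  have : IsAlgClosed kA := Gink.isAlgClosed_residueField A
  obtain ⟨P, hP, hdeg⟩ := exists_poly_H₂ hA h1
  obtain ⟨c, hc⟩ := IsAlgClosed.exists_root P hdeg
  obtain ⟨x', hx'⟩ := exists_hasValueAt_of_transcendental hFk (Gink.transcendental_jK A M) c
  rw [modS, numNodes_pos_iff _ (H₂_ne_zero h1)]
  refine ⟨x', LSb.Unit.HasValueAt.mem hx', ?_⟩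
  have h2 := HasValueAt.aeval hx' P
  rw [← hP, hc.eq_zero] at h2
  unfold HasValueAt at h2
  rwa [map_zero, sub_zero] at h2

end Fermat.Agent.LSb.Unit
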